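import Fermat.Agent.NormResidue.Decomposition
import Fermat.Agent.HasseNorm.Global

/-!
# The kernel of the symbol

The local norms have index at most the order of the decomposition group: this is known for cyclic
extensions and passes up a tower, as approximation moves every local norm to one prime.  So they are
the kernel.
-/

set_option autoImplicit false
set_option linter.unusedSectionVars false
set_option linter.style.haveILetI false

noncomputable section

open NumberField IsDedekindDomain Finset WithZero IsMulCommutative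
open FA.ArtinRec
open FA.HasseCyclic (nearOne mem_nearOne nearOne_anti exists_nearOne_le_locNorms locNorms
  locNorms_index_eq locNorms_index_ne_zero)
open scoped Pointwise nonZeroDivisors Classical

namespace FA.NormResidue

universe u w

variable {K : Type u} [Field K] [NumberField K]

/-- An element close to given ones at the primes over a finite set. -/
theorem exists_element_above {M : Type*} [Field M] [NumberField M] [Algebra K M]
    (R : Finset (HeightOneSpectrum (𝓞 K))) (b : HeightOneSpectrum (𝓞 M) → Mˣ) (k : ℕ) :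
    ∃ x : Mˣ, ∀ Q, belowP K Q ∈ R → x / b Q ∈ nearOne Q k := by
  obtain ⟨x, hx, -⟩ := exists_approx (primesAbove M R) b (k + 1) fun _ => true
  refine ⟨x, fun Q hQ => ?_⟩
  rw [mem_nearOne, Units.val_div_eq_div_val]
  exact hx Q (mem_primesAbove.2 hQ)

section step

variable {L : Type*} [Field L] [NumberField L] [Algebra K L]
  {M : Type*} [Field M] [NumberField M] [Algebra K M] [Algebra M L] [IsScalarTower K M L]

theorem normU'_normU' (x : Lˣ) :
    normU' (K := K) (normU' (K := M) x) = normU' (K := K) x :=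
  Units.ext Algebra.norm_norm

theorem normU'_galU [IsGalois K M] (g : M ≃ₐ[K] M) (x : Mˣ) :
    normU' (K := K) (galU g x) = normU' x :=
  Units.ext (Algebra.norm_eq_of_algEquiv g (x : M))

theorem locNorms_le_sub (v : HeightOneSpectrum (𝓞 K)) : locNorms L v ≤ locNorms M v :=
  le_iInf fun k => (iInf_le _ k).trans (sup_le_sup_right (by
    rintro _ ⟨x, rfl⟩
    exact ⟨normU' x, normU'_normU' x⟩) _)

variable [IsGalois K M] [IsGalois M L] [IsMulCommutative (L ≃ₐ[M] L)]

/-- **The index of the local norms in a tower.** -/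
theorem index_locNorms_le_mul (v : HeightOneSpectrum (𝓞 K)) {Q₁ : HeightOneSpectrum (𝓞 M)}
    (hQ₁ : belowP K Q₁ = v) :
    (locNorms L v).index ≤ (locNorms L Q₁).index * (locNorms M v).index := by
  rw [← Subgroup.relIndex_mul_index (locNorms_le_sub (L := L) (M := M) v)]
  refine Nat.mul_le_mul_right _ ?_
  set N := locNorms L v
  obtain ⟨k₀, hk₀⟩ := exists_nearOne_le_locNorms (L := L) v
  obtain ⟨jM, -, hjM⟩ := exists_norm_level (M := M) v k₀
  obtain ⟨j', hj'⟩ := exists_nearOne_le_locNorms (L := L) Q₁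
  set j := max jM j'
  set P := (finite_belowP (L := M) v).toFinset
  have hP : ∀ {Q}, Q ∈ P ↔ belowP K Q = v := (finite_belowP (L := M) v).mem_toFinset
  obtain ⟨j₂, hj₂⟩ := exists_norm_level_finset (L := L) P j
  -- one prime carries every local norm
  have hone : ∀ c : Mˣ, ∃ r : Mˣ, ∀ Q, belowP K Q = v →
      r / (if Q = Q₁ then c else 1) ∈ nearOne Q j := fun c => by
    obtain ⟨r, hr⟩ := exists_element_above {v} (fun Q => if Q = Q₁ then c else 1) j
    exact ⟨r, fun Q hQ => hr Q (Finset.mem_singleton.2 hQ)⟩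
  choose adj hadj using hone
  haveI : (locNorms L Q₁).FiniteIndex := ⟨locNorms_index_ne_zero Q₁⟩
  haveI : Finite (Mˣ ⧸ locNorms L Q₁) := Subgroup.finite_quotient_of_finiteIndex
  let ρ : Mˣ ⧸ locNorms L Q₁ → Kˣ ⧸ N := fun q => QuotientGroup.mk (normU' (adj q.out))
  have key : ∀ c ∈ locNorms M v, ∃ q, ρ q = QuotientGroup.mk c := fun c hc => by
    obtain ⟨_, ⟨y, rfl⟩, e, he, rfl⟩ := Subgroup.mem_sup.1 (Subgroup.mem_iInf.1 hc k₀)
    -- the parts of `y`, moved to `Q₁`
    have hy : ∀ Q : HeightOneSpectrum (𝓞 M), ∃ z : Mˣ, ∀ R, belowP K R = v →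
        z / (if R = Q then y else 1) ∈ nearOne R j := fun Q => by
      obtain ⟨z, hz⟩ := exists_element_above {v} (fun R => if R = Q then y else 1) j
      exact ⟨z, fun R hR => hz R (Finset.mem_singleton.2 hR)⟩
    choose part hpart using hy
    have hσ : ∀ Q : {Q // Q ∈ P}, ∃ s : M ≃ₐ[K] M, galPrime s Q.1 = Q₁ := fun Q =>
      exists_galPrime_eq ((hP.1 Q.2).trans hQ₁.symm)
    choose s hs using hσ
    set z : Mˣ := ∏ Q : {Q // Q ∈ P}, galU (s Q) (part Q.1)
    have hzN : normU' (K := K) y / normU' z ∈ nearOne v k₀ := by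
      rw [show normU' (K := K) z = normU' (∏ Q : {Q // Q ∈ P}, part Q.1) by
        simp only [z, map_prod, normU'_galU]]
      refine norm_div_norm_mem hjM fun R hR => nearOne_anti R (le_max_left jM j') ?_
      rw [← Finset.mul_prod_erase Finset.univ (fun Q : {Q // Q ∈ P} => part Q.1)
        (Finset.mem_univ ⟨R, hP.2 hR⟩), div_mul_eq_div_div]
      refine div_mem ?_ (prod_mem fun Q hQ => ?_)
      · have h := hpart R R hR
        rw [if_pos rfl] at h
        simpa using inv_mem h
      · have h := hpart Q.1 R hR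
        rwa [if_neg fun e => Finset.ne_of_mem_erase hQ (Subtype.ext e.symm), div_one] at h
    have hzoff : ∀ R, belowP K R = v → R ≠ Q₁ → z ∈ nearOne R j := fun R hR hne => by
      refine prod_mem fun Q _ => ?_
      have hR' : belowP K (galPrime (s Q)⁻¹ R) = v := (belowP_galPrime _ _).trans hR
      have hne' : galPrime (s Q)⁻¹ R ≠ Q.1 := fun e => hne (by
        rw [← hs Q, ← e, ← galPrime_mul, mul_inv_cancel, galPrime_one])
      have h := galU_mem_nearOne (s Q) (hpart Q.1 _ hR')
      rwa [if_neg hne', div_one, ← galPrime_mul, mul_inv_cancel, galPrime_one] at h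
    refine ⟨QuotientGroup.mk z, QuotientGroup.eq_iff_div_mem.2 ?_⟩
    set c₁ := (QuotientGroup.mk z : Mˣ ⧸ locNorms L Q₁).out
    set r := adj c₁
    have hzr : z / r ∈ locNorms L Q₁ := by
      have h1 : z / c₁ ∈ locNorms L Q₁ := QuotientGroup.eq_iff_div_mem.1 (QuotientGroup.out_eq' _).symm
      have h2 := hadj c₁ Q₁ hQ₁
      rw [if_pos rfl] at h2
      rw [← div_div_div_cancel_right z r c₁]
      exact div_mem h1 (hj' (nearOne_anti Q₁ (le_max_right jM j') h2))
    obtain ⟨_, ⟨x, rfl⟩, e₁, he₁, hxe⟩ := Subgroup.mem_sup.1 (Subgroup.mem_iInf.1 hzr j)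
    obtain ⟨x', hx'⟩ := exists_element_above P (fun S => if belowP M S = Q₁ then x else 1) j₂
    have hlast : ∀ R, belowP K R = v → z / r / normU' x' ∈ nearOne R j := fun R hR => by
      by_cases hne : R = Q₁
      · subst hne
        have h1 : normU' (K := M) x' / normU' x ∈ nearOne R j := by
          rw [← map_div]
          refine hj₂ R (hP.2 hR) _ fun S hS => ?_
          have h := hx' S (by rw [hS]; exact hP.2 hR)
          rwa [if_pos hS] at h
        rw [← hxe, show normU' (K := M) x * e₁ / normU' x' = e₁ / (normU' x' / normU' x) by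
          rw [div_div_eq_mul_div, mul_comm]]
        exact div_mem he₁ h1
      · refine div_mem (div_mem (hzoff R hR hne) ?_) (hj₂ R (hP.2 hR) x' fun S hS => ?_)
        · have h := hadj c₁ R hR
          rwa [if_neg hne, div_one] at h
        · have h := hx' S (by rw [hS]; exact hP.2 hR)
          rwa [if_neg fun e => hne (hS.symm.trans e), div_one] at h
    show normU' r / (normU' y * e) ∈ N
    have e2 : normU' r / (normU' y * e) = (normU' (K := K) x')⁻¹ *
        ((normU' (K := K) (z / r / normU' (K := M) x'))⁻¹ * ((normU' y / normU' z)⁻¹ * e⁻¹)) := by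
      simp only [map_div, normU'_normU']
      apply Units.ext
      simp only [Units.val_mul, Units.val_inv_eq_inv_val, Units.val_div_eq_div_val]
      field_simp
    rw [e2]
    exact mul_mem (inv_mem (FA.HasseCyclic.normU'_mem_locNorms v x')) (hk₀ (mul_mem
      (inv_mem (hjM _ fun R hR => nearOne_anti R (le_max_left jM j') (hlast R hR)))
      (mul_mem (inv_mem hzN) (inv_mem he))))
  have hle : Set.range (fun c : locNorms M v => (QuotientGroup.mk (c : Kˣ) : Kˣ ⧸ N)) ⊆ Set.range ρ := by
    rintro _ ⟨c, rfl⟩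
    obtain ⟨q, hq⟩ := key c.1 c.2
    exact ⟨q, hq⟩
  calc N.relIndex (locNorms M v)
      = Nat.card (Set.range (fun c : locNorms M v => (QuotientGroup.mk (c : Kˣ) : Kˣ ⧸ N))) := by
        rw [Subgroup.relIndex, Subgroup.index]
        refine Nat.card_eq_of_bijective (Quotient.lift
          (fun c : locNorms M v => (⟨_, c, rfl⟩ :
            Set.range (fun c : locNorms M v => (QuotientGroup.mk (c : Kˣ) : Kˣ ⧸ N))))
          fun a b hab => Subtype.ext (QuotientGroup.eq.2
            (Subgroup.mem_subgroupOf.1 ((QuotientGroup.leftRel_apply (s := N.subgroupOf _)).1 hab) :)))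
          ⟨?_, ?_⟩
        · rintro ⟨a⟩ ⟨b⟩ hab
          exact Quotient.sound ((QuotientGroup.leftRel_apply (s := N.subgroupOf _)).2
            (Subgroup.mem_subgroupOf.2 (QuotientGroup.eq.1 (congrArg Subtype.val hab) :)))
        · rintro ⟨_, c, rfl⟩
          exact ⟨Quotient.mk _ c, rfl⟩
    _ ≤ Nat.card (Set.range ρ) := Nat.card_mono (Set.finite_range ρ) hle
    _ ≤ Nat.card (Mˣ ⧸ locNorms L Q₁) := Nat.card_le_card_of_surjective _ Set.rangeFactorization_surjective

end step

/-- The decomposition group of a cyclic extension has the local index as order. -/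
theorem card_stabilizer_cyclic {L : Type*} [Field L] [NumberField L] [Algebra K L] [IsGalois K L]
    {σ : L ≃ₐ[K] L} (hσ : ∀ g, g ∈ Subgroup.zpowers σ) {v : HeightOneSpectrum (𝓞 K)}
    {Q : HeightOneSpectrum (𝓞 L)} (hQ : belowP K Q = v) :
    Nat.card (MulAction.stabilizer (L ≃ₐ[K] L) Q.asIdeal) = finIdx L v := by
  have hidx : (MulAction.stabilizer (L ≃ₐ[K] L) Q.asIdeal).index =
      Nat.card {R : HeightOneSpectrum (𝓞 L) // belowP K R = v} := by
    refine Nat.card_eq_of_bijective (Quotient.lift
      (fun g => (⟨galPrime g Q, (belowP_galPrime g Q).trans hQ⟩ :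
        {R : HeightOneSpectrum (𝓞 L) // belowP K R = v})) fun a b hab => ?_) ⟨?_, ?_⟩
    · refine Subtype.ext (HeightOneSpectrum.ext ?_)
      have h := MulAction.mem_stabilizer_iff.1 (QuotientGroup.leftRel_apply.1 hab)
      rw [mul_smul, inv_smul_eq_iff] at h
      exact h.symm
    · rintro ⟨a⟩ ⟨b⟩ hab
      refine Quotient.sound (QuotientGroup.leftRel_apply.2 (MulAction.mem_stabilizer_iff.2 ?_))
      rw [mul_smul, inv_smul_eq_iff]
      exact (congrArg (fun R => R.1.asIdeal) hab :).symm
    · rintro ⟨R, hR⟩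
      obtain ⟨g, hg⟩ := exists_galPrime_eq (hQ.trans hR.symm)
      exact ⟨Quotient.mk _ g, Subtype.ext hg⟩
  have h1 := Subgroup.card_mul_index (MulAction.stabilizer (L ≃ₐ[K] L) Q.asIdeal)
  rw [hidx, IsGalois.card_aut_eq_finrank, ← finIdx_mul_card hσ v] at h1
  refine Nat.eq_of_mul_eq_mul_right ?_ h1
  refine Nat.pos_of_ne_zero fun h => ?_
  have h2 := finIdx_mul_card hσ v
  rw [h, mul_zero] at h2
  exact Module.finrank_pos.ne h2

/-- **The bound for the index.** -/
theorem index_locNorms_le_aux : ∀ (n : ℕ) (L : Type w) [Field L] [NumberField L] [Algebra K L]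
    [IsGalois K L] [IsMulCommutative (L ≃ₐ[K] L)], Module.finrank K L = n →
    ∀ (v : HeightOneSpectrum (𝓞 K)) (Q : HeightOneSpectrum (𝓞 L)), belowP K Q = v →
      (locNorms L v).index ≤ Nat.card (MulAction.stabilizer (L ≃ₐ[K] L) Q.asIdeal) := by
  intro n
  induction n using Nat.strong_induction_on with
  | _ n ih =>
  intro L _ _ _ _ _ hn v Q hQ
  by_cases hc : IsCyclic (L ≃ₐ[K] L)
  · obtain ⟨σ, hσ⟩ := IsCyclic.exists_generator (α := L ≃ₐ[K] L)
    rw [card_stabilizer_cyclic hσ hQ, locNorms_index_eq hσ]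
  obtain ⟨g, hg⟩ : ∃ g : L ≃ₐ[K] L, g ≠ 1 := by
    by_contra! h
    exact hc ⟨(1 : L ≃ₐ[K] L), fun x => by rw [h x]; exact one_mem (Subgroup.zpowers _)⟩
  set H := Subgroup.zpowers g
  haveI := isGalois_fixedField H
  set M := IntermediateField.fixedField H with hM
  haveI := isMulCommutative_intermediate M
  haveI : IsGalois M L := IsGalois.tower_top_of_isGalois K M L
  have hres : ∀ h : L ≃ₐ[M] L, h.restrictScalars K ∈ H := fun h => by
    rw [← ker_restrict_fixedField H, MonoidHom.mem_ker, FA.ArtinL.restrictNormal_restrictScalars]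
  let ι : (L ≃ₐ[M] L) →* (L ≃ₐ[K] L) := MonoidHom.mk' (fun h => h.restrictScalars K) fun _ _ => rfl
  have hι : Function.Injective ι := fun a b h => AlgEquiv.ext fun x => DFunLike.congr_fun h x
  haveI : IsMulCommutative (L ≃ₐ[M] L) :=
    ⟨⟨fun a b => hι (by rw [map_mul, map_mul, mul_comm])⟩⟩
  haveI : IsCyclic (L ≃ₐ[M] L) :=
    isCyclic_of_injective (ι.codRestrict H hres) fun a b h => hι (congrArg Subtype.val h)
  have hlt : Module.finrank K M < n := by
    have h1 := Module.finrank_mul_finrank K M L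
    have h2 : 1 < Module.finrank M L := by
      rw [hM, IntermediateField.finrank_fixedField_eq_card, Nat.card_zpowers]
      exact Nat.one_lt_iff_ne_zero_and_ne_one.2 ⟨(orderOf_pos g).ne', fun h => hg (orderOf_eq_one_iff.1 h)⟩
    rw [← hn, ← h1]
    exact lt_mul_of_one_lt_right Module.finrank_pos h2
  set Q₁ := belowP M Q
  have hQ₁ : belowP K Q₁ = v := (belowP_belowP Q).trans hQ
  refine (index_locNorms_le_mul (L := L) v hQ₁).trans ?_
  obtain ⟨σ, hσ⟩ := IsCyclic.exists_generator (α := L ≃ₐ[M] L)
  rw [locNorms_index_eq hσ, ← card_stabilizer_cyclic hσ (Q := Q) rfl]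
  refine (Nat.mul_le_mul_left _ (ih _ hlt M rfl v Q₁ hQ₁)).trans ?_
  set D := MulAction.stabilizer (L ≃ₐ[K] L) Q.asIdeal
  set φ : D →* (M ≃ₐ[K] M) := (AlgEquiv.restrictNormalHom M).comp D.subtype
  have hr : φ.range = MulAction.stabilizer (M ≃ₐ[K] M) Q₁.asIdeal := by
    refine le_antisymm ?_ fun t ht => ?_
    · rintro _ ⟨⟨d, hd⟩, rfl⟩
      exact restrict_mem_stabilizer hd
    · obtain ⟨d, hd, rfl⟩ := exists_stabilizer_lift Q ht
      exact ⟨⟨d, hd⟩, rfl⟩
  have hk : Nat.card (MulAction.stabilizer (L ≃ₐ[M] L) Q.asIdeal) ≤ Nat.card φ.ker := by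
    refine Nat.card_le_card_of_injective
      (fun h => (⟨⟨ι h.1, h.2⟩, FA.ArtinL.restrictNormal_restrictScalars h.1⟩ : φ.ker))
      fun a b h => Subtype.ext (hι (congrArg (fun x => x.1.1) h))
  rw [← hr, ← Subgroup.index_ker, ← Subgroup.card_mul_index φ.ker]
  exact Nat.mul_le_mul_right _ hk

variable {L : Type w} [Field L] [NumberField L] [Algebra K L] [IsGalois K L]
  [IsMulCommutative (L ≃ₐ[K] L)]

/-- **The kernel is the group of the local norms.** -/
theorem ker_normSymbol (v : HeightOneSpectrum (𝓞 K)) :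
    (normSymbol L v).ker = locNorms L v := by
  obtain ⟨Q, hQ⟩ := exists_belowP K L v
  have h1 := index_locNorms_le_aux _ L rfl v Q hQ
  rw [← range_normSymbol hQ, ← Subgroup.index_ker,
    ← Subgroup.relIndex_mul_index (locNorms_le_ker_normSymbol (L := L) v)] at h1
  refine le_antisymm (Subgroup.relIndex_eq_one.1 ?_) (locNorms_le_ker_normSymbol v)
  have hk : (normSymbol L v).ker.index ≠ 0 := by
    rw [Subgroup.index_ker]
    exact Nat.card_pos.ne'
  have hne : (locNorms L v).relIndex (normSymbol L v).ker ≠ 0 := fun h => by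
    have := Subgroup.relIndex_mul_index (locNorms_le_ker_normSymbol (L := L) v)
    rw [h, zero_mul] at this
    exact locNorms_index_ne_zero v this.symm
  have : (locNorms L v).relIndex (normSymbol L v).ker ≤ 1 :=
    Nat.le_of_mul_le_mul_right (h1.trans (one_mul _).ge) (Nat.pos_of_ne_zero hk)
  omega

/-- **The local index of an abelian extension.** -/
theorem index_locNorms_eq_card {v : HeightOneSpectrum (𝓞 K)} {Q : HeightOneSpectrum (𝓞 L)}
    (hQ : belowP K Q = v) :
    (locNorms L v).index = Nat.card (MulAction.stabilizer (L ≃ₐ[K] L) Q.asIdeal) := by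
  rw [← ker_normSymbol, Subgroup.index_ker, range_normSymbol hQ]

end FA.NormResidue

end
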