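import Fermat.Agent.NormResidue.Basic

/-!
# Restriction and norms

The symbols restrict to the subextensions, and they are trivial on the local norms.
-/

set_option autoImplicit false
set_option linter.unusedSectionVars false
set_option linter.style.haveILetI false

noncomputable section

open NumberField NumberField.InfinitePlace IsDedekindDomain Finset WithZero IsMulCommutative
open FA.ArtinRec
open FA.HasseCyclic (nearOne mem_nearOne nearOne_anti ord_eq_zero_of_nearOne locNorms)
open scoped Pointwise nonZeroDivisors Classical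

namespace FA.NormResidue

universe u

variable {K : Type u} [Field K] [NumberField K] {L : Type*} [Field L] [NumberField L] [Algebra K L]
  [IsGalois K L] [IsMulCommutative (L ≃ₐ[K] L)]

/-! ### Restriction -/

section tower

variable {E : Type*} [Field E] [NumberField E] [Algebra K E] [Algebra E L] [IsScalarTower K E L]
  [IsGalois K E] [IsMulCommutative (E ≃ₐ[K] E)]

theorem not_isRam_sub {w : HeightOneSpectrum (𝓞 K)} (h : ¬ IsRam L w) : ¬ IsRam E w :=
  fun hr => h (isRam_of_tower hr)

theorem restrict_artinAt {w : HeightOneSpectrum (𝓞 K)} (h : ¬ IsRam E w) :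
    AlgEquiv.restrictNormalHom E (artinAt L w) = artinAt E w := by
  obtain ⟨Q, hQ, hτ⟩ := artinAt_spec (L := L) w
  exact restrict_frob (L := E) h hQ hτ

variable (E L) in
/-- The primes ramified above only contribute this much. -/
def extraFrob (w : HeightOneSpectrum (𝓞 K)) : E ≃ₐ[K] E :=
  if IsRam L w then goodFrob E w else 1

theorem restrict_unramFrob (b : Kˣ) :
    AlgEquiv.restrictNormalHom E (unramFrob L b) * ordProd (extraFrob L E) b = unramFrob E b := by
  rw [unramFrob, unramFrob, ordProd_apply, ordProd_apply, ordProd_apply,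
    MonoidHom.map_finprod _ (f := fun w => goodFrob L w ^ ord w b)
      (mulSupport_ord_finite (goodFrob L) b),
    ← finprod_mul_distrib ?_ (mulSupport_ord_finite (extraFrob L E) b)]
  · refine finprod_congr fun w => ?_
    unfold extraFrob goodFrob
    by_cases hL : IsRam L w
    · rw [if_pos hL, if_pos hL, one_zpow, map_one, one_mul]
    · rw [if_neg hL, if_neg hL, if_neg (not_isRam_sub hL), one_zpow, mul_one, map_zpow,
        restrict_artinAt (not_isRam_sub hL)]
  · exact (mulSupport_ord_finite (goodFrob L) b).subset fun w hw h => hw (by simp [h])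

theorem restrict_unramFrob_of_ord {b : Kˣ} (hb : ∀ w, IsRam L w → ord w b = 0) :
    AlgEquiv.restrictNormalHom E (unramFrob L b) = unramFrob E b := by
  have h : ordProd (extraFrob L E) b = 1 := by
    rw [ordProd_apply, finprod_eq_one_of_forall_eq_one]
    intro w
    by_cases hw : IsRam L w
    · rw [hb w hw, zpow_zero]
    · rw [extraFrob, if_neg hw, one_zpow]
  rw [← restrict_unramFrob (L := L) (E := E) b, h, mul_one]

/-- **The symbols restrict.** -/
theorem restrict_normSymbol (v : HeightOneSpectrum (𝓞 K)) (a : Kˣ) :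
    AlgEquiv.restrictNormalHom E (normSymbol L v a) = normSymbol E v a := by
  by_cases hvL : IsRam L v
  swap
  · rw [normSymbol_of_not_isRam hvL, normSymbol_of_not_isRam (not_isRam_sub hvL), map_zpow,
      restrict_artinAt (not_isRam_sub hvL)]
  obtain ⟨b, hb⟩ := exists_approximant (L := L) (max (nrLevel K L) (nrLevel K E)) v a
  have hbE : IsApprox E (nrLevel K E) v a b := by
    have h := hb.mono (le_max_right (nrLevel K L) (nrLevel K E))
    exact ⟨fun hv => h.1 (isRam_of_tower hv), fun w hw hne => h.2.1 w (isRam_of_tower hw) hne, h.2.2⟩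
  have hordv : ord v b = ord v a := by
    have h := ord_eq_zero_of_nearOne (hb.1 hvL)
    rwa [ord_div, sub_eq_zero] at h
  have hprod : ordProd (extraFrob L E) b = goodFrob E v ^ ord v a := by
    rw [ordProd_apply, finprod_eq_single _ v fun w hne => ?_, extraFrob, if_pos hvL, hordv]
    by_cases hw : IsRam L w
    · rw [ord_eq_zero_of_nearOne (hb.2.1 w hw hne), zpow_zero]
    · rw [extraFrob, if_neg hw, one_zpow]
  have h := restrict_unramFrob (L := L) (E := E) b
  rw [hprod, ← eq_mul_inv_iff_mul_eq] at h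
  rw [normSymbol_eq hvL (hb.mono (le_max_left _ _)), map_inv, h, mul_inv_rev, inv_inv]
  by_cases hvE : IsRam E v
  · rw [normSymbol_eq hvE hbE, goodFrob, if_pos hvE, one_zpow, one_mul]
  · rw [normSymbol_of_not_isRam hvE, goodFrob, if_neg hvE, unramFrob_eq_one
      (fun w hw => hbE.2.1 w hw fun e => hvE (e ▸ hw)) (fun w _ hr => hbE.2.2 _), inv_one, mul_one]

/-- The symbols at the infinite places restrict. -/
theorem restrict_infSymbol (w : InfinitePlace K) (a : Kˣ) :
    AlgEquiv.restrictNormalHom E (infSymbol L w a) = infSymbol E w a := by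
  obtain ⟨b, hb⟩ := exists_approximantInf (L := L) (max (nrLevel K L) (nrLevel K E)) w a
  have hbE : IsApproxInf E (nrLevel K E) w a b :=
    ⟨fun v hv => nearOne_anti v (le_max_right _ _) (hb.1 v (isRam_of_tower hv)), hb.2⟩
  rw [infSymbol_eq (hb.mono (le_max_left _ _)), infSymbol_eq hbE, map_inv,
    restrict_unramFrob_of_ord fun v hv => ord_eq_zero_of_nearOne (hb.1 v hv)]

end tower

/-! ### Norms -/

theorem artinAt_zpow_ord_norm {w : HeightOneSpectrum (𝓞 K)} (hw : ¬ IsRam L w) (x : Lˣ) :
    artinAt L w ^ ord w (normU' x) = 1 := by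
  rw [ord_normU', zpow_mul, zpow_natCast, artinAt_pow_fDeg hw, one_zpow]

/-- **The part prime to the ramified primes of a norm has trivial symbol.** -/
theorem unramFrob_normU' (x : Lˣ) : unramFrob L (normU' (K := K) x) = 1 := by
  rw [unramFrob, ordProd_apply, finprod_eq_one_of_forall_eq_one]
  intro w
  by_cases hw : IsRam L w
  · rw [goodFrob, if_pos hw, one_zpow]
  · rw [goodFrob, if_neg hw, artinAt_zpow_ord_norm hw]

section near

variable {M : Type*} [Field M] [NumberField M] [Algebra K M] [IsGalois K M]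

/-- Galois moves the congruences. -/
theorem galU_mem_nearOne (g : M ≃ₐ[K] M) {Q : HeightOneSpectrum (𝓞 M)} {j : ℕ} {z : Mˣ}
    (hz : z ∈ nearOne Q j) : galU g z ∈ nearOne (galPrime g Q) j := by
  rw [mem_nearOne] at hz ⊢
  by_cases h0 : (z : M) - 1 = 0
  · rw [galU_val, sub_eq_zero.1 h0, map_one, sub_self, map_zero]
    exact zero_le
  · have e : ((galU g z : Mˣ) : M) - 1 = ((galU g (Units.mk0 _ h0) : Mˣ) : M) := by
      rw [galU_val, galU_val, Units.val_mk0, map_sub, map_one]
    rw [e, valuation_eq_exp, ord_galU, ← valuation_eq_exp, Units.val_mk0]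
    exact hz

/-- **Norms are continuous.** -/
theorem exists_norm_level (v : HeightOneSpectrum (𝓞 K)) (k : ℕ) : ∃ j : ℕ, k ≤ j ∧
    ∀ z : Mˣ, (∀ Q, belowP K Q = v → z ∈ nearOne Q j) → normU' z ∈ nearOne v k := by
  obtain ⟨Q, hQ⟩ := exists_belowP K M v
  refine ⟨eIdx K Q * (k + 1), (Nat.le_succ k).trans (Nat.le_mul_of_pos_left _ (eIdx_pos Q)),
    fun z hz => ?_⟩
  have hprod : baseU (normU' (K := K) z) = ∏ g : M ≃ₐ[K] M, galU g z := Units.ext (by
    rw [baseU_val, Units.coe_prod]
    exact Algebra.norm_eq_prod_automorphisms K (z : M))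
  have hmem : baseU (normU' (K := K) z) ∈ nearOne Q (eIdx K Q * (k + 1)) := by
    rw [hprod]
    refine prod_mem fun g _ => ?_
    have h := galU_mem_nearOne g (hz (galPrime g⁻¹ Q) ((belowP_galPrime _ _).trans hQ))
    rwa [← galPrime_mul, mul_inv_cancel, galPrime_one] at h
  rw [mem_nearOne] at hmem ⊢
  by_cases h0 : ((normU' z : Kˣ) : K) - 1 = 0
  · rw [h0, map_zero]
    exact zero_le
  rw [baseU_val, ← map_one (algebraMap K M), ← map_sub,
    show ((normU' z : Kˣ) : K) - 1 = ((Units.mk0 _ h0 : Kˣ) : K) from rfl, ← baseU_val,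
    valuation_eq_exp, ord_baseU, hQ, exp_le_exp] at hmem
  rw [show ((normU' z : Kˣ) : K) - 1 = ((Units.mk0 _ h0 : Kˣ) : K) from rfl, valuation_eq_exp,
    exp_le_exp]
  push_cast at hmem ⊢
  nlinarith [eIdx_pos (K := K) Q]

/-- Norms of elements congruent above are congruent. -/
theorem norm_div_norm_mem {v : HeightOneSpectrum (𝓞 K)} {j k : ℕ}
    (hj : ∀ z : Mˣ, (∀ Q, belowP K Q = v → z ∈ nearOne Q j) → normU' z ∈ nearOne v k) {x y : Mˣ}
    (h : ∀ Q, belowP K Q = v → x / y ∈ nearOne Q j) :
    normU' x / normU' y ∈ nearOne v k := by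
  rw [← map_div]
  exact hj _ h

end near

/-- A level good at every prime of a finite set. -/
theorem exists_norm_level_finset (R : Finset (HeightOneSpectrum (𝓞 K))) (k : ℕ) : ∃ j : ℕ,
    ∀ v ∈ R, ∀ z : Lˣ, (∀ Q, belowP K Q = v → z ∈ nearOne Q j) → normU' z ∈ nearOne v k := by
  choose j _ hj using fun v => exists_norm_level (M := L) (K := K) v k
  exact ⟨R.sup j, fun v hv z hz => hj v z fun Q hQ =>
    nearOne_anti Q (Finset.le_sup (f := j) hv) (hz Q hQ)⟩

/-- **The symbol of a norm is trivial.** -/
theorem normSymbol_normU' (v : HeightOneSpectrum (𝓞 K)) (y : Lˣ) :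
    normSymbol L v (normU' y) = 1 := by
  by_cases hv : IsRam L v
  swap
  · rw [normSymbol_of_not_isRam hv, artinAt_zpow_ord_norm hv]
  set R := (finite_isRam K L).toFinset
  obtain ⟨j, hj⟩ := exists_norm_level_finset (L := L) R (nrLevel K L)
  obtain ⟨x, hx, hxs⟩ := exists_approx (primesAbove L R)
    (fun Q => if belowP K Q = v then y else 1) (j + 1) fun _ => true
  have hxQ : ∀ Q, IsRam L (belowP K Q) → x / (if belowP K Q = v then y else 1) ∈ nearOne Q j :=
    fun Q hQ => by
      rw [mem_nearOne, Units.val_div_eq_div_val]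
      exact hx Q (mem_primesAbove.2 ((finite_isRam K L).mem_toFinset.2 hQ))
  have happ : IsApprox L (nrLevel K L) v (normU' y) (normU' x) := by
    refine ⟨fun _ => norm_div_norm_mem (hj v ((finite_isRam K L).mem_toFinset.2 hv)) fun Q hQ => ?_,
      fun w hw hne => hj w ((finite_isRam K L).mem_toFinset.2 hw) x fun Q hQ => ?_, fun φ => ?_⟩
    · have h := hxQ Q (hQ ▸ hv)
      rwa [if_pos hQ] at h
    · have h := hxQ Q (hQ ▸ hw)
      rwa [if_neg fun e => hne (hQ.symm.trans e), div_one] at h
    · exact norm_pos_of_totallyPositive x.ne_zero (fun ψ => (hxs ψ).2 rfl) φ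
  rw [normSymbol_eq hv happ, unramFrob_normU', inv_one]

/-- Close to `1` is in the kernel. -/
theorem nearOne_le_ker_normSymbol (v : HeightOneSpectrum (𝓞 K)) :
    nearOne v (nrLevel K L) ≤ (normSymbol L v).ker := fun a ha => by
  rw [MonoidHom.mem_ker]
  by_cases hv : IsRam L v
  · rw [normSymbol_eq hv (b := 1) ⟨fun _ => by rw [one_div]; exact inv_mem ha,
      fun w _ _ => one_mem _, fun φ => by simp⟩, map_one, inv_one]
  · rw [normSymbol_of_not_isRam hv, ord_eq_zero_of_nearOne ha, zpow_zero]

/-- **The local norms are in the kernel.** -/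
theorem locNorms_le_ker_normSymbol (v : HeightOneSpectrum (𝓞 K)) :
    locNorms L v ≤ (normSymbol L v).ker :=
  (iInf_le _ (nrLevel K L)).trans (sup_le (by
    rintro _ ⟨y, rfl⟩
    exact normSymbol_normU' v y) (nearOne_le_ker_normSymbol v))

end FA.NormResidue

end
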