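import Fermat.Agent.ClassFieldTheory.Conductor
import Fermat.Agent.HasseNorm.Local
import Fermat.Agent.ExistenceTheorem.SignedReciprocity

/-!
# The norm residue symbol

For an element `a` and one place take an auxiliary element close to `a` there and close to `1`, or
positive, at the other bad places.  The inverse Artin symbol of its part prime to the ramified
primes depends only on `a`: this is the symbol at the place, and the product formula is then Artin
reciprocity.
-/

set_option autoImplicit false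
set_option linter.unusedSectionVars false
set_option linter.style.haveILetI false

noncomputable section

open NumberField NumberField.InfinitePlace IsDedekindDomain Finset WithZero IsMulCommutative
open FA.Hecke (IsRayElt coprimeIdeals RayClassGroup rayClass rayClass_eq_iff)
open FA.Ext (primeIdeal)
open FA.ArtinRec
open FA.HasseCyclic (nearOne mem_nearOne nearOne_anti ord_eq_zero_of_nearOne)
open FA.RayFields (exists_ray_congr exists_isModulus)
open scoped Pointwise nonZeroDivisors Classical

namespace FA.NormResidue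

universe u

variable {K : Type u} [Field K] [NumberField K]

/-! ### Products over the primes -/

section products

variable {A : Type*} [CommGroup A]

theorem mulSupport_ord_finite (f : HeightOneSpectrum (𝓞 K) → A) (b : Kˣ) :
    (Function.mulSupport fun w => f w ^ ord w b).Finite :=
  (finite_ord_ne_zero b).subset fun w hw h0 => hw (by simp [h0])

/-- The product of the `f w` to the orders of an element. -/
def ordProd (f : HeightOneSpectrum (𝓞 K) → A) : Kˣ →* A :=
  MonoidHom.mk' (fun b => ∏ᶠ w, f w ^ ord w b) fun a b => by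
    rw [← finprod_mul_distrib (mulSupport_ord_finite f a) (mulSupport_ord_finite f b)]
    exact finprod_congr fun w => by rw [ord_mul, zpow_add]

theorem ordProd_apply (f : HeightOneSpectrum (𝓞 K) → A) (b : Kˣ) :
    ordProd f b = ∏ᶠ w, f w ^ ord w b := rfl

theorem mulSupport_ordI_finite (f : HeightOneSpectrum (𝓞 K) → A) (I : (Ideal (𝓞 K))⁰) :
    (Function.mulSupport fun w => f w ^ ordI w I.1).Finite :=
  (finite_ordI_ne_zero (nonZeroDivisors.coe_ne_zero I)).subset fun w hw h0 => hw (by simp [h0])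

theorem factorHom_eq_finprod (f : HeightOneSpectrum (𝓞 K) → A) (I : (Ideal (𝓞 K))⁰) :
    factorHom f I = ∏ᶠ w, f w ^ ordI w I.1 := by
  let ψ : coprimeIdeals (⊤ : Ideal (𝓞 K)) →* A :=
    MonoidHom.mk' (fun J => ∏ᶠ w, f w ^ ordI w J.1.1) fun J J' => by
      rw [← finprod_mul_distrib (mulSupport_ordI_finite f J.1) (mulSupport_ordI_finite f J'.1)]
      exact finprod_congr fun w => by
        rw [← pow_add]
        exact congrArg _ (ordI_mul w (nonZeroDivisors.coe_ne_zero J.1)
          (nonZeroDivisors.coe_ne_zero J'.1))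
  have h : (factorHom f).comp (coprimeIdeals (⊤ : Ideal (𝓞 K))).subtype = ψ :=
    hom_ext_primes fun v hv => by
      show factorHom f (primeIdeal v) = ∏ᶠ w, f w ^ ordI w v.asIdeal
      rw [factorHom_prime, finprod_eq_single _ v fun w hw => by rw [ordI_prime, if_neg hw, pow_zero],
        ordI_prime, if_pos rfl, pow_one]
  exact DFunLike.congr_fun h ⟨I, sup_top_eq _⟩

theorem factorHom_span (f : HeightOneSpectrum (𝓞 K) → A) {x : 𝓞 K} (hx : x ≠ 0)
    (I : (Ideal (𝓞 K))⁰) (hI : I.1 = Ideal.span {x}) :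
    factorHom f I = ordProd f (intU x hx) := by
  rw [factorHom_eq_finprod, ordProd_apply]
  exact finprod_congr fun w => by rw [ord_intU_eq_ordI, zpow_natCast, hI]

end products

variable {L : Type*} [Field L] [NumberField L] [Algebra K L] [IsGalois K L]
  [IsMulCommutative (L ≃ₐ[K] L)]

/-! ### A symbol of the classes that agrees almost everywhere -/

/-- **A homomorphism of the classes agreeing with the Artin symbol almost everywhere agrees at
every prime outside its modulus.** -/
theorem frob_of_rayHom {𝔪 : Ideal (𝓞 K)} (h𝔪 : 𝔪 ≠ ⊥) (S : Set (InfinitePlace K))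
    (ω : RayClassGroup 𝔪 →* (L ≃ₐ[K] L)) (hS : semiClasses h𝔪 S ≤ ω.ker)
    {B : Set (HeightOneSpectrum (𝓞 K))} (hB : B.Finite)
    (h : ∀ (v : HeightOneSpectrum (𝓞 K)) (hv : v.asIdeal ⊔ 𝔪 = ⊤), v ∉ B →
      ω (rayClass h𝔪 ⟨primeIdeal v, hv⟩) = artinAt L v) :
    (∀ (v : HeightOneSpectrum (𝓞 K)) (hv : v.asIdeal ⊔ 𝔪 = ⊤),
      ¬ IsRam L v ∧ ω (rayClass h𝔪 ⟨primeIdeal v, hv⟩) = artinAt L v) ∧
      ∀ w ∉ S, InfinitePlace.IsUnramifiedIn L w := by
  obtain ⟨E, _, _, _, _, _, hE⟩ := exists_classField h𝔪 S ω.ker hS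
  obtain ⟨f⟩ := exists_algHom_of_split (L := E) (E := L) (hB.union (Ideal.finite_factors h𝔪))
    fun v hv h1 => by
      simp only [Set.mem_union, Set.mem_ofPred_eq, not_or] at hv
      have hvm : v.asIdeal ⊔ 𝔪 = ⊤ :=
        (sup_eq_top_iff_not_le v 𝔪).2 fun hle => hv.2 (Ideal.dvd_iff_le.2 hle)
      rw [← h v hvm hv.1]
      exact (hE.artinAt_eq_one_iff v hvm).1 h1
  refine ⟨fun v hv => ?_, fun w hw => isUnramifiedIn_of_algHom f (hE.unramInf w hw)⟩
  have hr : ¬ IsRam L v := isRam_of_algHom f (hE.unram v hv)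
  refine ⟨hr, ?_⟩
  obtain ⟨𝔣, ⟨h𝔣, ωf, hωf⟩, hfr⟩ := exists_isModulus K L
  set 𝔑 := 𝔪 * 𝔣
  have h𝔑 : 𝔑 ≠ ⊥ := mul_ne_zero h𝔪 h𝔣
  have hvf : v.asIdeal ⊔ 𝔣 = ⊤ :=
    (sup_eq_top_iff_not_le v 𝔣).2 fun hle => hr (hfr v (Ideal.dvd_iff_le.2 hle))
  have hvN : v.asIdeal ⊔ 𝔑 = ⊤ := (sup_eq_top_iff_not_le v _).2 fun hle =>
    (v.prime.dvd_or_dvd (Ideal.dvd_iff_le.2 hle)).elim
      (fun h => (sup_eq_top_iff_not_le v 𝔪).1 hv (Ideal.le_of_dvd h))
      fun h => hr (hfr v h)
  obtain ⟨u, hu, huB, hγ⟩ := exists_prime_in_class_avoiding h𝔑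
    (rayClass h𝔑 ⟨primeIdeal v, hvN⟩) hB
  have h1 := congrArg (fun γ => ωf (rayMap h𝔑 h𝔣 Ideal.mul_le_right γ)) hγ
  simp only [rayMap_apply] at h1
  replace h1 := ((hωf u _).2.symm.trans h1).trans (hωf v _).2
  have h2 := congrArg (fun γ => ω (rayMap h𝔑 h𝔪 Ideal.mul_le_left γ)) hγ
  simp only [rayMap_apply] at h2
  rw [← h2, ← h1]
  exact h u _ huB

/-! ### The level -/

variable (L) in
/-- The Frobenius elements, trivial at the ramified primes. -/
def goodFrob (w : HeightOneSpectrum (𝓞 K)) : L ≃ₐ[K] L :=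
  if IsRam L w then 1 else artinAt L w

variable (L) in
/-- The Artin symbol of the part prime to the ramified primes. -/
def unramFrob : Kˣ →* (L ≃ₐ[K] L) := ordProd (goodFrob L)

variable (K L) in
/-- **Reciprocity for elements.** -/
theorem exists_level : ∃ k₀ : ℕ, ∀ b : Kˣ, (∀ w, IsRam L w → b ∈ nearOne w k₀) →
    (∀ w : InfinitePlace K, ¬ w.IsUnramifiedIn L →
      ∀ h : IsReal w, 0 < embedding_of_isReal h (b : K)) → unramFrob L b = 1 := by
  obtain ⟨𝔪₀, h𝔪₀, hdvd₀, hrec₀⟩ := exists_signed_modulus K L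
  obtain ⟨𝔪, h𝔪, hiff, hrec⟩ : ∃ 𝔪 : Ideal (𝓞 K), 𝔪 ≠ ⊥ ∧ (∀ v, v.asIdeal ∣ 𝔪 ↔ IsRam L v) ∧
      ∀ (x : 𝓞 K) (I : (Ideal (𝓞 K))⁰), x ≠ 0 → x - 1 ∈ 𝔪 →
        (∀ w : InfinitePlace K, ¬ w.IsUnramifiedIn L →
          ∀ h : IsReal w, 0 < embedding_of_isReal h (x : K)) →
        I.1 = Ideal.span {x} → artinHom L I = 1 := by
    refine ⟨𝔪₀ * ∏ v ∈ (finite_isRam K L).toFinset, v.asIdeal,
      mul_ne_zero h𝔪₀ (Finset.prod_ne_zero_iff.2 fun v _ => v.ne_bot), fun v => ⟨fun hv => ?_,
        fun hv => dvd_mul_of_dvd_right (Finset.dvd_prod_of_mem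
          (fun u : HeightOneSpectrum (𝓞 K) => u.asIdeal) ((finite_isRam K L).mem_toFinset.2 hv)) _⟩,
      fun x I hx hx1 => hrec₀ x I hx (Ideal.mul_le_left hx1)⟩
    rcases v.prime.dvd_or_dvd hv with h | h
    · exact hdvd₀ v h
    · obtain ⟨u, hu, hd⟩ := v.prime.exists_mem_finset_dvd h
      rw [show v = u from HeightOneSpectrum.ext ((prime_dvd_prime_iff_eq v.prime u.prime).1 hd)]
      exact (finite_isRam K L).mem_toFinset.1 hu
  have hdvd : ∀ v : HeightOneSpectrum (𝓞 K), v.asIdeal ∣ 𝔪 → IsRam L v := fun v => (hiff v).1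
  refine ⟨∑ w ∈ (finite_isRam K L).toFinset, ordI w 𝔪, fun b hb hpos => ?_⟩
  have hb0 : ∀ w, w.asIdeal ∣ 𝔪 → ord w b = 0 := fun w hw =>
    ord_eq_zero_of_nearOne (hb w (hdvd w hw))
  -- a denominator congruent to one
  obtain ⟨J, hJ, hordJ⟩ := exists_ideal_ordI (fun w => (-ord w b).toNat)
    ((finite_ord_ne_zero b).subset fun w hw h0 => hw (by simp [h0]))
  have hJc : J ⊔ 𝔪 = ⊤ := coprime_iff_ordI.2 fun w hw => by rw [hordJ, hb0 w hw]; rfl
  obtain ⟨y, hy, hyJ⟩ := exists_ray_congr hJ h𝔪 (x := 0)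
    (by rw [hJc]; exact Submodule.mem_top)
  rw [zero_sub, neg_mem_iff] at hyJ
  obtain ⟨x, hx, hxb⟩ := exists_intU_of_ord_nonneg (x := b * intU y hy.1) fun w => by
    rw [ord_mul, ord_intU_eq_ordI]
    by_cases h : ord w b < 0
    · have h1 : w.asIdeal ^ (-ord w b).toNat ∣ Ideal.span {y} := by
        refine dvd_trans ?_ (Ideal.dvd_span_singleton.2 hyJ)
        rw [← hordJ w]
        exact pow_multiplicity_dvd _ _
      have h2 := FiniteMultiplicity.le_multiplicity_of_pow_dvd
        (FiniteMultiplicity.of_prime_left w.prime (by simpa using hy.1)) h1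
      simp only [ordI] at *
      omega
    · omega
  have hxK : (x : K) = (b : K) * (y : K) := by
    have := congrArg Units.val hxb
    rw [Units.val_mul, intU_val, intU_val] at this
    exact this.symm
  have hx1 : x - 1 ∈ 𝔪 := by
    by_cases h0 : x - 1 = 0
    · rw [h0]; exact 𝔪.zero_mem
    rw [← Ideal.dvd_span_singleton]
    refine dvd_of_ordI_le h𝔪 (by simpa using h0) fun w => ?_
    by_cases hw : w.asIdeal ∣ 𝔪
    · have hle : ordI w 𝔪 ≤ ∑ u ∈ (finite_isRam K L).toFinset, ordI u 𝔪 :=
        Finset.single_le_sum (f := fun u => ordI u 𝔪) (fun _ _ => Nat.zero_le _)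
          ((finite_isRam K L).mem_toFinset.2 (hdvd w hw))
      have hmem : x - 1 ∈ w.asIdeal ^ ordI w 𝔪 := by
        rw [← w.intValuation_le_pow_iff_mem, ← w.valuation_of_algebraMap (K := K)]
        show w.valuation K ((x : K) - (1 : 𝓞 K)) ≤ _
        push_cast
        rw [hxK, show (b : K) * (y : K) - 1 = ((b : K) - 1) * (y : K) + ((y : K) - 1) by ring]
        refine Valuation.map_add_le _ ?_ ?_
        · rw [map_mul]
          refine (mul_le_of_le_one_right zero_le (w.valuation_le_one _)).trans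
            ((mem_nearOne.1 (hb w (hdvd w hw))).trans (exp_le_exp.2 (by omega)))
        · rw [show (y : K) - 1 = algebraMap (𝓞 K) K (y - 1) by rw [map_sub, map_one],
            w.valuation_of_algebraMap]
          exact (w.intValuation_le_pow_iff_mem _ _).2
            (Ideal.le_of_dvd (pow_multiplicity_dvd _ _) hy.2.1)
      exact FiniteMultiplicity.le_multiplicity_of_pow_dvd
        (FiniteMultiplicity.of_prime_left w.prime (by simpa using h0))
        (Ideal.dvd_span_singleton.2 hmem)
    · rw [(ordI_eq_zero_iff w).2 hw]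
      exact Nat.zero_le _
  have key : ∀ (z : 𝓞 K) (hz : z ≠ 0), z - 1 ∈ 𝔪 →
      (∀ w : InfinitePlace K, ¬ w.IsUnramifiedIn L →
        ∀ h : IsReal w, 0 < embedding_of_isReal h (z : K)) →
      (∀ w, IsRam L w → ord w (intU z hz) = 0) → unramFrob L (intU z hz) = 1 := by
    intro z hz hz1 hzp hzord
    set I : (Ideal (𝓞 K))⁰ :=
      ⟨Ideal.span {z}, mem_nonZeroDivisors_iff_ne_zero.mpr (by simpa using hz)⟩
    rw [← hrec z I hz hz1 hzp rfl, artinHom, factorHom_span _ hz I rfl, unramFrob, ordProd_apply,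
      ordProd_apply]
    refine finprod_congr fun w => ?_
    by_cases hw : IsRam L w
    · rw [hzord w hw, zpow_zero, zpow_zero]
    · rw [goodFrob, if_neg hw]
  have hyord : ∀ w, IsRam L w → ord w (intU y hy.1) = 0 → ord w (intU x hx) = 0 := fun w hw h => by
    rw [← hxb, ord_mul, h, ord_eq_zero_of_nearOne (hb w hw), add_zero]
  have hall : ∀ w, IsRam L w → ord w (intU y hy.1) = 0 := fun w hw => by
    rw [ord_intU_eq_ordI, coprime_iff_ordI.1 (IsSemiRay.sup_eq_top (S := ∅)
      ⟨hy.1, hy.2.1, fun w hw => absurd hw id⟩) w ((hiff w).2 hw)]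
    rfl
  have hxfrob := key x hx hx1 (fun w hw h => by
    rw [hxK, map_mul]; exact mul_pos (hpos w hw h) (hy.2.2 _))
    (fun w hw => hyord w hw (hall w hw))
  rw [← hxb, map_mul, key y hy.1 hy.2.1 (fun w _ h => hy.2.2 _) hall, mul_one] at hxfrob
  exact hxfrob

variable (K L) in
/-- A level from which reciprocity holds. -/
def nrLevel : ℕ := (exists_level K L).choose

theorem unramFrob_eq_one {b : Kˣ} (hb : ∀ w, IsRam L w → b ∈ nearOne w (nrLevel K L))
    (hpos : ∀ w : InfinitePlace K, ¬ w.IsUnramifiedIn L →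
      ∀ h : IsReal w, 0 < embedding_of_isReal h (b : K)) : unramFrob L b = 1 :=
  (exists_level K L).choose_spec b hb hpos

/-! ### The symbols -/

/-- `b` stands in for `a` at the prime `v`. -/
def IsApprox (L : Type*) [Field L] [NumberField L] [Algebra K L] (k : ℕ)
    (v : HeightOneSpectrum (𝓞 K)) (a b : Kˣ) : Prop :=
  (IsRam L v → b / a ∈ nearOne v k) ∧ (∀ w, IsRam L w → w ≠ v → b ∈ nearOne w k) ∧
    ∀ φ : K →+* ℝ, 0 < φ (b : K)

theorem exists_approximant (k : ℕ) (v : HeightOneSpectrum (𝓞 K)) (a : Kˣ) :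
    ∃ b : Kˣ, IsApprox L k v a b := by
  obtain ⟨b, hb, hs⟩ := exists_approx (finite_isRam K L).toFinset
    (fun w => if w = v then a else 1) (k + 1) fun _ => true
  refine ⟨b, fun hv => ?_, fun w hw hne => ?_, fun φ => (hs φ).2 rfl⟩
  · have h := hb v ((finite_isRam K L).mem_toFinset.2 hv)
    rw [if_pos rfl] at h
    rw [mem_nearOne, Units.val_div_eq_div_val]
    exact h
  · have h := hb w ((finite_isRam K L).mem_toFinset.2 hw)
    rw [if_neg hne, Units.val_one, div_one] at h
    exact h

theorem IsApprox.mono {j k : ℕ} (hjk : j ≤ k) {v : HeightOneSpectrum (𝓞 K)} {a b : Kˣ}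
    (h : IsApprox L k v a b) : IsApprox L j v a b :=
  ⟨fun hv => nearOne_anti v hjk (h.1 hv), fun w hw hne => nearOne_anti w hjk (h.2.1 w hw hne),
    h.2.2⟩

theorem IsApprox.mul {k : ℕ} {v : HeightOneSpectrum (𝓞 K)} {a a' b b' : Kˣ}
    (h : IsApprox L k v a b) (h' : IsApprox L k v a' b') : IsApprox L k v (a * a') (b * b') :=
  ⟨fun hv => by rw [mul_div_mul_comm]; exact mul_mem (h.1 hv) (h'.1 hv),
    fun w hw hne => mul_mem (h.2.1 w hw hne) (h'.2.1 w hw hne), fun φ => by
      rw [Units.val_mul, map_mul]; exact mul_pos (h.2.2 φ) (h'.2.2 φ)⟩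

theorem IsApprox.unramFrob_eq {v : HeightOneSpectrum (𝓞 K)} {a b b' : Kˣ}
    (h : IsApprox L (nrLevel K L) v a b) (h' : IsApprox L (nrLevel K L) v a b') :
    unramFrob L b = unramFrob L b' := by
  rw [← div_eq_one, ← map_div]
  refine unramFrob_eq_one (fun w hw => ?_) fun w _ hr => ?_
  · by_cases hwv : w = v
    · subst hwv
      rw [show b / b' = b / a / (b' / a) from (div_div_div_cancel_right b b' a).symm]
      exact div_mem (h.1 hw) (h'.1 hw)
    · exact div_mem (h.2.1 w hw hwv) (h'.2.1 w hw hwv)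
  · rw [Units.val_div_eq_div_val, map_div₀]
    exact div_pos (h.2.2 _) (h'.2.2 _)

variable (L) in
/-- The defining value. -/
def symbolVal (v : HeightOneSpectrum (𝓞 K)) (a : Kˣ) : L ≃ₐ[K] L :=
  if IsRam L v then (unramFrob L (exists_approximant (L := L) (nrLevel K L) v a).choose)⁻¹
  else artinAt L v ^ ord v a

variable (L) in
/-- **The norm residue symbol at a prime.** -/
def normSymbol (v : HeightOneSpectrum (𝓞 K)) : Kˣ →* (L ≃ₐ[K] L) :=
  MonoidHom.mk' (symbolVal L v) fun a a' => by
    by_cases hv : IsRam L v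
    · simp only [symbolVal, if_pos hv]
      rw [← mul_inv, ← map_mul,
        ((exists_approximant (L := L) (nrLevel K L) v a).choose_spec.mul
          (exists_approximant (L := L) (nrLevel K L) v a').choose_spec).unramFrob_eq
          (exists_approximant (L := L) (nrLevel K L) v (a * a')).choose_spec]
    · simp only [symbolVal, if_neg hv]
      rw [ord_mul, zpow_add]

/-- **The symbol at a ramified prime, by any stand-in.** -/
theorem normSymbol_eq {v : HeightOneSpectrum (𝓞 K)} (hv : IsRam L v) {a b : Kˣ}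
    (h : IsApprox L (nrLevel K L) v a b) : normSymbol L v a = (unramFrob L b)⁻¹ := by
  show symbolVal L v a = _
  rw [symbolVal, if_pos hv,
    (exists_approximant (L := L) (nrLevel K L) v a).choose_spec.unramFrob_eq h]

/-- **The symbol at an unramified prime.** -/
theorem normSymbol_of_not_isRam {v : HeightOneSpectrum (𝓞 K)} (hv : ¬ IsRam L v) (a : Kˣ) :
    normSymbol L v a = artinAt L v ^ ord v a := if_neg hv

/-- The sign condition at the real embedding `φ`. -/
def infSign (w : InfinitePlace K) (a : Kˣ) (φ : K →+* ℝ) : ℝ :=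
  if ∃ h : IsReal w, embedding_of_isReal h = φ then φ (a : K) else 1

theorem infSign_mul (w : InfinitePlace K) (a a' : Kˣ) (φ : K →+* ℝ) :
    infSign w (a * a') φ = infSign w a φ * infSign w a' φ := by
  unfold infSign
  split_ifs
  · rw [Units.val_mul, map_mul]
  · rw [one_mul]

theorem infSign_ne_zero (w : InfinitePlace K) (a : Kˣ) (φ : K →+* ℝ) : infSign w a φ ≠ 0 := by
  unfold infSign
  split_ifs
  · exact (map_ne_zero φ).2 a.ne_zero
  · exact one_ne_zero

/-- `b` stands in for `a` at the infinite place `w`. -/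
def IsApproxInf (L : Type*) [Field L] [NumberField L] [Algebra K L] (k : ℕ) (w : InfinitePlace K)
    (a b : Kˣ) : Prop :=
  (∀ v, IsRam L v → b ∈ nearOne v k) ∧ ∀ φ : K →+* ℝ, 0 < φ (b : K) * infSign w a φ

theorem exists_approximantInf (k : ℕ) (w : InfinitePlace K) (a : Kˣ) :
    ∃ b : Kˣ, IsApproxInf L k w a b := by
  obtain ⟨b, hb, hs⟩ := exists_approx (finite_isRam K L).toFinset (fun _ => (1 : Kˣ)) (k + 1)
    fun φ => decide (0 < infSign w a φ)
  refine ⟨b, fun v hv => ?_, fun φ => ?_⟩
  · have h := hb v ((finite_isRam K L).mem_toFinset.2 hv)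
    rw [Units.val_one, div_one] at h
    exact h
  · rcases lt_or_gt_of_ne (infSign_ne_zero w a φ) with h | h
    · refine mul_pos_of_neg_of_neg (lt_of_le_of_ne (not_lt.1 fun hp => ?_) (by simp)) h
      exact lt_asymm h (of_decide_eq_true ((hs φ).1 hp))
    · exact mul_pos ((hs φ).2 (decide_eq_true h)) h

theorem IsApproxInf.mono {j k : ℕ} (hjk : j ≤ k) {w : InfinitePlace K} {a b : Kˣ}
    (h : IsApproxInf L k w a b) : IsApproxInf L j w a b :=
  ⟨fun v hv => nearOne_anti v hjk (h.1 v hv), h.2⟩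

theorem IsApproxInf.mul {k : ℕ} {w : InfinitePlace K} {a a' b b' : Kˣ}
    (h : IsApproxInf L k w a b) (h' : IsApproxInf L k w a' b') :
    IsApproxInf L k w (a * a') (b * b') :=
  ⟨fun v hv => mul_mem (h.1 v hv) (h'.1 v hv), fun φ => by
    rw [infSign_mul, Units.val_mul, map_mul, mul_mul_mul_comm]
    exact mul_pos (h.2 φ) (h'.2 φ)⟩

theorem IsApproxInf.unramFrob_eq {w : InfinitePlace K} {a b b' : Kˣ}
    (h : IsApproxInf L (nrLevel K L) w a b) (h' : IsApproxInf L (nrLevel K L) w a b') :
    unramFrob L b = unramFrob L b' := by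
  rw [← div_eq_one, ← map_div]
  refine unramFrob_eq_one (fun v hv => div_mem (h.1 v hv) (h'.1 v hv)) fun u _ hr => ?_
  rw [Units.val_div_eq_div_val, map_div₀, ← mul_div_mul_right _ _
    (infSign_ne_zero w a (embedding_of_isReal hr))]
  exact div_pos (h.2 _) (h'.2 _)

variable (L) in
/-- The defining value at an infinite place. -/
def infVal (w : InfinitePlace K) (a : Kˣ) : L ≃ₐ[K] L :=
  (unramFrob L (exists_approximantInf (L := L) (nrLevel K L) w a).choose)⁻¹

theorem infVal_mul (w : InfinitePlace K) (a a' : Kˣ) :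
    infVal L w (a * a') = infVal L w a * infVal L w a' := by
  have h := ((exists_approximantInf (L := L) (nrLevel K L) w a).choose_spec.mul
    (exists_approximantInf (L := L) (nrLevel K L) w a').choose_spec).unramFrob_eq
    (exists_approximantInf (L := L) (nrLevel K L) w (a * a')).choose_spec
  rw [map_mul] at h
  simp only [infVal]
  rw [← h, mul_inv]

variable (L) in
/-- **The norm residue symbol at an infinite place.** -/
def infSymbol (w : InfinitePlace K) : Kˣ →* (L ≃ₐ[K] L) :=
  MonoidHom.mk' (infVal L w) (infVal_mul w)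

/-- The symbol at an infinite place, by any stand-in. -/
theorem infSymbol_eq {w : InfinitePlace K} {a b : Kˣ} (h : IsApproxInf L (nrLevel K L) w a b) :
    infSymbol L w a = (unramFrob L b)⁻¹ := by
  show infVal L w a = _
  rw [infVal, (exists_approximantInf (L := L) (nrLevel K L) w a).choose_spec.unramFrob_eq h]

theorem normSymbol_finite_support (a : Kˣ) :
    (Function.mulSupport fun v => normSymbol L v a).Finite :=
  ((finite_isRam K L).union (finite_ord_ne_zero a)).subset fun v hv => by
    by_contra h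
    simp only [Set.mem_union, Set.mem_ofPred_eq, not_or, not_not] at h
    exact hv (show normSymbol L v a = 1 by rw [normSymbol_of_not_isRam h.1, h.2, zpow_zero])

/-- **The product formula.** -/
theorem prod_normSymbol (a : Kˣ) :
    (∏ᶠ v, normSymbol L v a) * ∏ w : InfinitePlace K, infSymbol L w a = 1 := by
  set R := (finite_isRam K L).toFinset
  choose c hc using fun v => exists_approximant (L := L) (nrLevel K L) v a
  choose d hd using fun w => exists_approximantInf (L := L) (nrLevel K L) w a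
  set B : Kˣ := (∏ v ∈ R, c v) * ∏ w : InfinitePlace K, d w
  have hB : unramFrob L a = unramFrob L B := by
    rw [eq_comm, ← div_eq_one, ← map_div]
    refine unramFrob_eq_one (fun u hu => ?_) fun u _ hr => ?_
    · have huR : u ∈ R := (finite_isRam K L).mem_toFinset.2 hu
      rw [show B / a = c u / a * (∏ v ∈ R.erase u, c v) * ∏ w : InfinitePlace K, d w by
        rw [show B = c u * (∏ v ∈ R.erase u, c v) * ∏ w : InfinitePlace K, d w by
          rw [Finset.mul_prod_erase R c huR], div_eq_mul_inv, div_eq_mul_inv]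
        ac_rfl]
      exact mul_mem (mul_mem ((hc u).1 hu) (prod_mem fun v hv =>
        (hc v).2.1 u hu (Finset.ne_of_mem_erase hv).symm)) (prod_mem fun w _ => (hd w).1 u hu)
    · set φ := embedding_of_isReal hr
      have ha : φ (a : K) ≠ 0 := (map_ne_zero φ).2 a.ne_zero
      rw [Units.val_div_eq_div_val, map_div₀, ← mul_div_mul_right _ _ ha]
      refine div_pos ?_ (mul_self_pos.2 ha)
      simp only [B, Units.val_mul, Units.coe_prod, map_mul, map_prod]
      rw [mul_assoc, ← Finset.mul_prod_erase _ (fun w => φ (d w : K)) (Finset.mem_univ u),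
        mul_right_comm _ _ (φ (a : K))]
      refine mul_pos (Finset.prod_pos fun v _ => (hc v).2.2 φ) (mul_pos ?_ (Finset.prod_pos
        fun w hw => ?_))
      · have h := (hd u).2 φ
        rwa [infSign, if_pos ⟨hr, rfl⟩] at h
      · have h := (hd w).2 φ
        rwa [infSign, if_neg fun ⟨hw', he⟩ => Finset.ne_of_mem_erase hw
          (embedding_of_isReal_inj hw' hr he), mul_one] at h
  have hsplit : ∏ᶠ v, normSymbol L v a = (∏ v ∈ R, normSymbol L v a) * unramFrob L a := by
    have h1 : (Function.mulSupport fun v => if IsRam L v then normSymbol L v a else 1) ⊆ R :=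
      fun v hv => (finite_isRam K L).mem_toFinset.2 (by_contra fun h => hv (if_neg h))
    rw [finprod_congr (g := fun v =>
      (if IsRam L v then normSymbol L v a else 1) * goodFrob L v ^ ord v a) fun v => by
        unfold goodFrob
        split_ifs with h
        · rw [one_zpow, mul_one]
        · rw [one_mul, normSymbol_of_not_isRam h],
      finprod_mul_distrib (R.finite_toSet.subset h1) (mulSupport_ord_finite _ a),
      finprod_eq_prod_of_mulSupport_subset _ h1]
    congr 1
    exact Finset.prod_congr rfl fun v hv => if_pos ((finite_isRam K L).mem_toFinset.1 hv)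
  rw [hsplit, hB, map_mul, map_prod, map_prod,
    Finset.prod_congr rfl (fun v hv => normSymbol_eq ((finite_isRam K L).mem_toFinset.1 hv) (hc v)),
    Finset.prod_congr rfl (fun w _ => infSymbol_eq (hd w)), Finset.prod_inv_distrib,
    Finset.prod_inv_distrib, inv_mul_cancel_left, mul_inv_cancel]

end FA.NormResidue

end
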