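import Fermat.Agent.ArtinReciprocity.Frobenius
import Fermat.Agent.HasseNorm.Local

/-!
# Decomposition and inertia groups in abelian towers

Both groups map onto those below, do not depend on the prime above, and the decomposition group is
trivial exactly when the prime is unramified with trivial Frobenius element.
-/

set_option autoImplicit false
set_option linter.unusedSectionVars false
set_option linter.style.haveILetI false

noncomputable section

open NumberField NumberField.InfinitePlace IsDedekindDomain Finset IsMulCommutative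
open FA.ArtinRec
open scoped Pointwise Classical

namespace FA.NormResidue

universe u

variable {K : Type u} [Field K] [NumberField K] {L : Type*} [Field L] [NumberField L] [Algebra K L]
  [IsGalois K L]

/-- Galois acts transitively above a prime. -/
theorem exists_galPrime_eq {Q Q' : HeightOneSpectrum (𝓞 L)} (h : belowP K Q = belowP K Q') :
    ∃ g : L ≃ₐ[K] L, galPrime g Q = Q' := by
  obtain ⟨g, hg⟩ := Algebra.IsInvariant.exists_smul_of_under_eq (𝓞 K) (𝓞 L) (L ≃ₐ[K] L)
    Q.asIdeal Q'.asIdeal (congrArg HeightOneSpectrum.asIdeal h)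
  exact ⟨g, HeightOneSpectrum.ext hg.symm⟩

variable [IsMulCommutative (L ≃ₐ[K] L)]

theorem stabilizer_eq_of_under {Q Q' : HeightOneSpectrum (𝓞 L)} (h : belowP K Q = belowP K Q') :
    MulAction.stabilizer (L ≃ₐ[K] L) Q.asIdeal = MulAction.stabilizer (L ≃ₐ[K] L) Q'.asIdeal := by
  obtain ⟨g, rfl⟩ := exists_galPrime_eq h
  ext t
  show t • Q.asIdeal = Q.asIdeal ↔ t • g • Q.asIdeal = g • Q.asIdeal
  rw [← mul_smul, mul_comm t g, mul_smul]
  exact ⟨fun ht => by rw [ht], fun ht => smul_left_cancel g ht⟩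

theorem inertia_eq_of_under {Q Q' : HeightOneSpectrum (𝓞 L)} (h : belowP K Q = belowP K Q') :
    Q.asIdeal.inertia (L ≃ₐ[K] L) = Q'.asIdeal.inertia (L ≃ₐ[K] L) := by
  obtain ⟨g, rfl⟩ := exists_galPrime_eq h
  ext t
  constructor
  · intro ht y
    have h1 := Ideal.smul_mem_pointwise_smul g _ Q.asIdeal (ht (g⁻¹ • y))
    show t • y - y ∈ g • Q.asIdeal
    rwa [smul_sub, ← mul_smul, ← mul_smul, mul_comm g t, smul_inv_smul, mul_inv_cancel_right] at h1
  · intro ht y
    have h1 := Ideal.smul_mem_pointwise_smul g⁻¹ _ (g • Q.asIdeal) (ht (g • y))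
    show t • y - y ∈ Q.asIdeal
    rwa [inv_smul_smul, smul_sub, ← mul_smul, ← mul_smul, inv_smul_smul, mul_assoc, mul_comm t g,
      inv_mul_cancel_left] at h1

/-- An unramified prime with trivial Frobenius element has trivial decomposition group. -/
theorem stabilizer_eq_bot_of_split {v : HeightOneSpectrum (𝓞 K)} (hr : ¬ IsRam L v)
    (h1 : artinAt L v = 1) {Q : HeightOneSpectrum (𝓞 L)} (hQ : belowP K Q = v) :
    MulAction.stabilizer (L ≃ₐ[K] L) Q.asIdeal = ⊥ := by
  obtain ⟨Q₀, hQ₀, hτ⟩ := artinAt_spec (L := L) v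
  rw [h1] at hτ
  rw [stabilizer_eq_of_under (hQ.trans hQ₀.symm), ← le_bot_iff, ← inertia_eq_bot hr hQ₀]
  intro t ht x
  haveI := Q₀.isPrime
  haveI : Finite (𝓞 L ⧸ Q₀.asIdeal) := Ideal.finiteQuotientOfFreeOfNeBot _ Q₀.ne_bot
  haveI := Q₀.isMaximal
  haveI := (belowP K Q₀).isMaximal
  -- every residue comes from below
  haveI : Q₀.asIdeal.LiesOver (belowP K Q₀).asIdeal := ⟨rfl⟩
  have hcard : Nat.card (𝓞 K ⧸ (belowP K Q₀).asIdeal) = Nat.card (𝓞 L ⧸ Q₀.asIdeal) := by
    have hN := congrArg Ideal.absNorm (relNorm_of_frob_one (K := K) hτ)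
    rw [Ideal.absNorm_relNorm, Ideal.absNorm_apply, Submodule.cardQuot_apply, Ideal.absNorm_apply,
      Submodule.cardQuot_apply] at hN
    exact hN.symm
  haveI : Finite (𝓞 K ⧸ (belowP K Q₀).asIdeal) :=
    Ideal.finiteQuotientOfFreeOfNeBot _ (belowP K Q₀).ne_bot
  have hsurj : Function.Surjective (Ideal.quotientMap Q₀.asIdeal (algebraMap (𝓞 K) (𝓞 L))
      (show (belowP K Q₀).asIdeal ≤ Q₀.asIdeal.comap (algebraMap (𝓞 K) (𝓞 L)) from le_rfl)) :=
    ((Nat.bijective_iff_injective_and_card _).2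
      ⟨Ideal.quotientMap_injective' le_rfl, hcard⟩).2
  obtain ⟨c, hc⟩ := hsurj (Ideal.Quotient.mk _ x)
  obtain ⟨c, rfl⟩ := Ideal.Quotient.mk_surjective c
  rw [Ideal.quotientMap_mk, Ideal.Quotient.eq] at hc
  have h2 := Ideal.smul_mem_pointwise_smul t _ _ hc
  rw [MulAction.mem_stabilizer_iff.1 ht, smul_sub, smul_algebraMap] at h2
  show t • x - x ∈ Q₀.asIdeal
  convert Q₀.asIdeal.sub_mem hc h2 using 1
  ring

/-- Conversely. -/
theorem split_of_stabilizer_eq_bot {v : HeightOneSpectrum (𝓞 K)} {Q : HeightOneSpectrum (𝓞 L)}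
    (hQ : belowP K Q = v) (h : MulAction.stabilizer (L ≃ₐ[K] L) Q.asIdeal = ⊥) :
    ¬ IsRam L v ∧ artinAt L v = 1 := by
  refine ⟨?_, ?_⟩
  · rintro ⟨Q', hQ', hne⟩
    refine hne (le_bot_iff.1 ?_)
    rw [← h, stabilizer_eq_of_under (hQ.trans hQ'.symm)]
    exact Ideal.inertia_le_stabilizer _
  · obtain ⟨Q₀, hQ₀, hτ⟩ := artinAt_spec (L := L) v
    haveI := Q₀.isPrime
    have hmem := hτ.mem_stabilizer
    rw [← stabilizer_eq_of_under (hQ.trans hQ₀.symm), h, Subgroup.mem_bot] at hmem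
    exact hmem

section tower

variable {E : Type*} [Field E] [NumberField E] [Algebra K E] [Algebra E L] [IsScalarTower K E L]
  [IsGalois K E]

theorem restrict_mem_stabilizer {Q : HeightOneSpectrum (𝓞 L)} {g : L ≃ₐ[K] L}
    (hg : g ∈ MulAction.stabilizer (L ≃ₐ[K] L) Q.asIdeal) :
    AlgEquiv.restrictNormalHom E g ∈ MulAction.stabilizer (E ≃ₐ[K] E) (belowP E Q).asIdeal := by
  rw [MulAction.mem_stabilizer_iff] at hg ⊢
  ext y
  show y ∈ AlgEquiv.restrictNormalHom E g • Q.asIdeal.under (𝓞 E) ↔ y ∈ Q.asIdeal.under (𝓞 E)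
  rw [Ideal.mem_pointwise_smul_iff_inv_smul_mem, Ideal.mem_comap, Ideal.mem_comap, ← map_inv,
    FA.ArtinL.algebraMap_restrictNormal_smul, ← Ideal.mem_pointwise_smul_iff_inv_smul_mem, hg]

/-- The decomposition group maps onto the one below. -/
theorem exists_stabilizer_lift (Q : HeightOneSpectrum (𝓞 L)) {t : E ≃ₐ[K] E}
    (ht : t ∈ MulAction.stabilizer (E ≃ₐ[K] E) (belowP E Q).asIdeal) :
    ∃ g ∈ MulAction.stabilizer (L ≃ₐ[K] L) Q.asIdeal, AlgEquiv.restrictNormalHom E g = t := by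
  haveI : IsGalois E L := IsGalois.tower_top_of_isGalois K E L
  obtain ⟨σ₀, hσ₀⟩ := AlgEquiv.restrictNormalHom_surjective (F := K) (K₁ := E) L t
  have hunder : belowP E (galPrime σ₀ Q) = belowP E Q := HeightOneSpectrum.ext (by
    ext y
    show y ∈ (σ₀ • Q.asIdeal).under (𝓞 E) ↔ y ∈ Q.asIdeal.under (𝓞 E)
    rw [Ideal.mem_comap, Ideal.mem_pointwise_smul_iff_inv_smul_mem,
      ← FA.ArtinL.algebraMap_restrictNormal_smul, map_inv, hσ₀]
    show t⁻¹ • y ∈ (belowP E Q).asIdeal ↔ y ∈ (belowP E Q).asIdeal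
    rw [← Ideal.mem_pointwise_smul_iff_inv_smul_mem, MulAction.mem_stabilizer_iff.1 ht])
  obtain ⟨h, hh⟩ := exists_galPrime_eq (K := E) hunder
  refine ⟨h.restrictScalars K * σ₀, ?_, by
    rw [map_mul, FA.ArtinL.restrictNormal_restrictScalars h, one_mul, hσ₀]⟩
  rw [MulAction.mem_stabilizer_iff, mul_smul]
  conv_rhs => rw [← hh]
  rfl

/-- The inertia group maps into the one below. -/
theorem restrict_mem_inertia {Q : HeightOneSpectrum (𝓞 L)} {g : L ≃ₐ[K] L}
    (hg : g ∈ Q.asIdeal.inertia (L ≃ₐ[K] L)) :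
    AlgEquiv.restrictNormalHom E g ∈ (belowP E Q).asIdeal.inertia (E ≃ₐ[K] E) := fun y => by
  show AlgEquiv.restrictNormalHom E g • y - y ∈ Q.asIdeal.under (𝓞 E)
  rw [Ideal.mem_comap, map_sub, FA.ArtinL.algebraMap_restrictNormal_smul]
  exact hg _

theorem restrict_mem_stabilizer_place {u : InfinitePlace L} {g : L ≃ₐ[K] L}
    (hg : g ∈ MulAction.stabilizer (L ≃ₐ[K] L) u) :
    AlgEquiv.restrictNormalHom E g ∈
      MulAction.stabilizer (E ≃ₐ[K] E) (u.comap (algebraMap E L)) := by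
  rw [MulAction.mem_stabilizer_iff] at hg ⊢
  refine InfinitePlace.ext _ _ fun x => ?_
  rw [InfinitePlace.smul_apply, InfinitePlace.comap_apply, InfinitePlace.comap_apply]
  conv_rhs => rw [← hg, InfinitePlace.smul_apply]
  congr 1
  show algebraMap E L ((AlgEquiv.restrictNormalHom E g).symm x) = g.symm (algebraMap E L x)
  rw [show (AlgEquiv.restrictNormalHom E g).symm = AlgEquiv.restrictNormalHom E g.symm from
    (map_inv (AlgEquiv.restrictNormalHom E) g).symm]
  exact g.symm.restrictNormal_commutes E x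

/-- The decomposition group at an infinite place maps onto the one below. -/
theorem exists_stabilizer_lift_place (u : InfinitePlace L) {t : E ≃ₐ[K] E}
    (ht : t ∈ MulAction.stabilizer (E ≃ₐ[K] E) (u.comap (algebraMap E L))) :
    ∃ g ∈ MulAction.stabilizer (L ≃ₐ[K] L) u, AlgEquiv.restrictNormalHom E g = t := by
  haveI : IsGalois E L := IsGalois.tower_top_of_isGalois K E L
  obtain ⟨σ₀, hσ₀⟩ := AlgEquiv.restrictNormalHom_surjective (F := K) (K₁ := E) L t
  have hcomap : (σ₀ • u).comap (algebraMap E L) = u.comap (algebraMap E L) := by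
    conv_rhs => rw [← MulAction.mem_stabilizer_iff.1 ht]
    refine InfinitePlace.ext _ _ fun x => ?_
    rw [InfinitePlace.smul_apply, InfinitePlace.comap_apply, InfinitePlace.comap_apply,
      InfinitePlace.smul_apply]
    congr 1
    rw [show t.symm = AlgEquiv.restrictNormalHom E σ₀.symm from by
      rw [← hσ₀]; exact (map_inv (AlgEquiv.restrictNormalHom E) σ₀).symm]
    exact (σ₀.symm.restrictNormal_commutes E x).symm
  obtain ⟨h, hh⟩ := InfinitePlace.exists_smul_eq_of_comap_eq hcomap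
  refine ⟨h.restrictScalars K * σ₀, ?_, by
    rw [map_mul, FA.ArtinL.restrictNormal_restrictScalars h, one_mul, hσ₀]⟩
  rw [MulAction.mem_stabilizer_iff, mul_smul]
  exact hh

end tower

/-! ### Fixed fields -/

/-- A fixed field of an abelian extension is Galois. -/
theorem isGalois_fixedField (H : Subgroup (L ≃ₐ[K] L)) :
    IsGalois K (IntermediateField.fixedField H) := by
  haveI : H.Normal := ⟨fun n hn g => by rwa [mul_comm g n, mul_inv_cancel_right]⟩
  infer_instance

theorem ker_restrict_fixedField (H : Subgroup (L ≃ₐ[K] L))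
    [IsGalois K (IntermediateField.fixedField H)] :
    (AlgEquiv.restrictNormalHom (IntermediateField.fixedField H) :
      (L ≃ₐ[K] L) →* (_ ≃ₐ[K] _)).ker = H :=
  (IntermediateField.restrictNormalHom_ker _).trans (IntermediateField.fixingSubgroup_fixedField _)

theorem isMulCommutative_intermediate (E : IntermediateField K L) [IsGalois K E] :
    IsMulCommutative (E ≃ₐ[K] E) :=
  ⟨⟨fun a b => by
    obtain ⟨a, rfl⟩ := AlgEquiv.restrictNormalHom_surjective (F := K) (K₁ := E) L a
    obtain ⟨b, rfl⟩ := AlgEquiv.restrictNormalHom_surjective (F := K) (K₁ := E) L b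
    rw [← map_mul, ← map_mul, mul_comm]⟩⟩

end FA.NormResidue

end
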