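import Fermat.Agent.NormResidue.Functorial
import Fermat.Agent.NormResidue.Groups

/-!
# The image of the symbol

In the fixed field of a subgroup containing the symbols of the local units the congruences at the
prime do not matter, so it is unramified there by the existence theorem and its Frobenius element is
the symbol of a uniformiser.  Hence the image is the decomposition group and that of the units is
the inertia group.
-/

set_option autoImplicit false
set_option linter.unusedSectionVars false
set_option linter.style.haveILetI false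

noncomputable section

open NumberField NumberField.InfinitePlace IsDedekindDomain Finset WithZero IsMulCommutative
open FA.Hecke (IsRayElt coprimeIdeals RayClassGroup rayClass rayClass_eq_iff)
open FA.Ext (primeIdeal)
open FA.ArtinRec
open FA.HasseCyclic (nearOne mem_nearOne ord_eq_zero_of_nearOne)
open scoped Pointwise nonZeroDivisors Classical

namespace FA.NormResidue

universe u

variable {K : Type u} [Field K] [NumberField K] {L : Type*} [Field L] [NumberField L] [Algebra K L]
  [IsGalois K L] [IsMulCommutative (L ≃ₐ[K] L)]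

/-- A congruence modulo a multiple is close to `1`. -/
theorem nearOne_of_pow_dvd {𝔪 : Ideal (𝓞 K)} {w : HeightOneSpectrum (𝓞 K)} {k : ℕ}
    (hd : w.asIdeal ^ (k + 1) ∣ 𝔪) {x : 𝓞 K} (hx0 : x ≠ 0) (hx : x - 1 ∈ 𝔪) :
    intU x hx0 ∈ nearOne w k := by
  have h := (w.intValuation_le_pow_iff_mem _ _).2 (Ideal.le_of_dvd hd hx)
  rw [← w.valuation_of_algebraMap (K := K)] at h
  rw [mem_nearOne, intU_val]
  push_cast at h
  exact h

/-- A symbol of the classes from values at the primes. -/
theorem exists_rayHom {𝔪 : Ideal (𝓞 K)} (h𝔪 : 𝔪 ≠ ⊥) {A : Type*} [CommGroup A]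
    (f : HeightOneSpectrum (𝓞 K) → A)
    (h : ∀ (x : 𝓞 K) (hx : IsRayElt 𝔪 x), ordProd f (intU x hx.1) = 1) :
    ∃ ω : RayClassGroup 𝔪 →* A, ∀ I : coprimeIdeals 𝔪, ω (rayClass h𝔪 I) = factorHom f I.1 := by
  refine ⟨rayLift h𝔪 ((factorHom f).comp (coprimeIdeals 𝔪).subtype) fun I J hIJ => ?_,
    fun I => rayLift_apply _ _ _ _⟩
  obtain ⟨x, y, hx, hy, hxy⟩ := (rayClass_eq_iff h𝔪).1 hIJ
  let X : (Ideal (𝓞 K))⁰ :=
    ⟨Ideal.span {x}, mem_nonZeroDivisors_iff_ne_zero.mpr (by simpa using hx.1)⟩
  let Y : (Ideal (𝓞 K))⁰ :=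
    ⟨Ideal.span {y}, mem_nonZeroDivisors_iff_ne_zero.mpr (by simpa using hy.1)⟩
  have he := congrArg (factorHom f) (show X * I.1 = Y * J.1 from Subtype.ext hxy)
  rw [map_mul, map_mul, factorHom_span f hx.1 X rfl, factorHom_span f hy.1 Y rfl, h x hx, h y hy,
    one_mul, one_mul] at he
  exact he

/-- The modulus away from `v`. -/
def awayMod (L : Type*) [Field L] [NumberField L] [Algebra K L] [IsGalois K L]
    [IsMulCommutative (L ≃ₐ[K] L)] (B : Set (HeightOneSpectrum (𝓞 K))) : Ideal (𝓞 K) :=
  ∏ w ∈ (finite_isRam K L).toFinset.filter (· ∉ B), w.asIdeal ^ (nrLevel K L + 1)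

theorem awayMod_ne_bot (B : Set (HeightOneSpectrum (𝓞 K))) : awayMod L B ≠ ⊥ :=
  Finset.prod_ne_zero_iff.2 fun w _ => pow_ne_zero _ w.ne_bot

theorem coprime_awayMod {B : Set (HeightOneSpectrum (𝓞 K))} {v : HeightOneSpectrum (𝓞 K)}
    (h : IsRam L v → v ∈ B) : v.asIdeal ⊔ awayMod L B = ⊤ := by
  rw [sup_eq_top_iff_not_le, ← Ideal.dvd_iff_le]
  intro hd
  obtain ⟨u, hu, hdu⟩ := v.prime.exists_mem_finset_dvd hd
  obtain ⟨hu1, hu2⟩ := Finset.mem_filter.1 hu
  rw [show u = v from HeightOneSpectrum.ext
    ((prime_dvd_prime_iff_eq v.prime u.prime).1 (v.prime.dvd_of_dvd_pow hdu)).symm] at hu1 hu2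
  exact hu2 (h ((finite_isRam K L).mem_toFinset.1 hu1))

theorem nearOne_awayMod {B : Set (HeightOneSpectrum (𝓞 K))} {w : HeightOneSpectrum (𝓞 K)}
    (hw : IsRam L w) (hB : w ∉ B) {x : 𝓞 K} (hx0 : x ≠ 0) (hx : x - 1 ∈ awayMod L B) :
    intU x hx0 ∈ nearOne w (nrLevel K L) :=
  nearOne_of_pow_dvd (Finset.dvd_prod_of_mem
    (fun w : HeightOneSpectrum (𝓞 K) => w.asIdeal ^ (nrLevel K L + 1))
    (Finset.mem_filter.2 ⟨(finite_isRam K L).mem_toFinset.2 hw, hB⟩)) hx0 hx

/-- **A subextension in which the symbols of the units at `v` vanish is unramified at `v`.** -/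
theorem frob_sub_of_units {E : Type*} [Field E] [NumberField E] [Algebra K E] [Algebra E L]
    [IsScalarTower K E L] [IsGalois K E] [IsMulCommutative (E ≃ₐ[K] E)]
    (v : HeightOneSpectrum (𝓞 K))
    (hunit : ∀ c : Kˣ, ord v c = 0 → normSymbol E v c = 1) :
    ¬ IsRam E v ∧ artinAt E v = normSymbol E v (unif v) := by
  set g : HeightOneSpectrum (𝓞 K) → (E ≃ₐ[K] E) := fun w =>
    if w = v then normSymbol E v (unif v) else AlgEquiv.restrictNormalHom E (goodFrob L w)
  obtain ⟨ω, hω⟩ := exists_rayHom (awayMod_ne_bot (L := L) {v}) g fun x hx => by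
    set X := intU x hx.1
    -- compare with the symbol of the extension
    have hpiece : ordProd g X = AlgEquiv.restrictNormalHom E (unramFrob L X) *
        (normSymbol E v (unif v) / AlgEquiv.restrictNormalHom E (goodFrob L v)) ^ ord v X := by
      rw [unramFrob, ordProd_apply, ordProd_apply, MonoidHom.map_finprod _
        (f := fun w => goodFrob L w ^ ord w X) (mulSupport_ord_finite (goodFrob L) X)]
      have hsingle : (normSymbol E v (unif v) / AlgEquiv.restrictNormalHom E (goodFrob L v)) ^
          ord v X = ∏ᶠ w, (if w = v then normSymbol E v (unif v) /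
            AlgEquiv.restrictNormalHom E (goodFrob L v) else 1) ^ ord w X := by
        rw [finprod_eq_single _ v fun w hw => by rw [if_neg hw, one_zpow], if_pos rfl]
      have hfin : (Function.mulSupport fun w =>
          AlgEquiv.restrictNormalHom E (goodFrob L w ^ ord w X)).Finite :=
        (finite_ord_ne_zero X).subset fun w hw h => hw (by simp [h])
      rw [hsingle, ← finprod_mul_distrib hfin (mulSupport_ord_finite (fun w =>
        if w = v then normSymbol E v (unif v) / AlgEquiv.restrictNormalHom E (goodFrob L v) else 1) X)]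
      refine finprod_congr fun w => ?_
      rw [map_zpow, ← mul_zpow]
      congr 1
      simp only [g]
      split_ifs with hw
      · subst hw; rw [mul_div_cancel]
      · rw [mul_one]
    rw [hpiece]
    by_cases hv : IsRam L v
    · have happ : IsApprox L (nrLevel K L) v X X :=
        ⟨fun _ => by rw [div_self']; exact one_mem _,
          fun w hw hne => nearOne_awayMod hw hne hx.1 hx.2.1, fun φ => hx.2.2 φ⟩
      have h2 := restrict_normSymbol (L := L) (E := E) v X
      rw [normSymbol_eq hv happ, map_inv, inv_eq_iff_eq_inv] at h2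
      rw [h2, goodFrob, if_pos hv, map_one, div_one, ← map_inv, ← map_zpow, ← map_mul]
      exact hunit _ (by rw [ord_mul, ord_inv, ord_zpow, ord_unif]; omega)
    · have h2 := restrict_normSymbol (L := L) (E := E) v (unif v)
      rw [normSymbol_of_not_isRam hv, ord_unif, zpow_one] at h2
      rw [goodFrob, if_neg hv, h2, div_self', one_zpow, mul_one,
        unramFrob_eq_one (fun w hw => nearOne_awayMod hw (fun e => hv (by
          rw [Set.mem_singleton_iff] at e; exact e ▸ hw)) hx.1 hx.2.1) (fun w _ hr => hx.2.2 _),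
        map_one]
  have key := (frob_of_rayHom (L := E) (awayMod_ne_bot (L := L) {v}) Set.univ ω
    (by rw [semiClasses_univ]; exact bot_le) ((finite_isRam K L).union (Set.finite_singleton v))
    fun w hw hB => by
      simp only [Set.mem_union, Set.mem_ofPred_eq, Set.mem_singleton_iff, not_or] at hB
      rw [hω, factorHom_prime]
      simp only [g, if_neg hB.2, goodFrob, if_neg hB.1]
      exact restrict_artinAt (not_isRam_sub hB.1)).1 v (coprime_awayMod fun _ => Set.mem_singleton v)
  refine ⟨key.1, ?_⟩
  rw [← key.2, hω, factorHom_prime]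
  simp only [g, if_pos rfl]

/-- **The image is the decomposition group.** -/
theorem range_normSymbol {v : HeightOneSpectrum (𝓞 K)} {Q : HeightOneSpectrum (𝓞 L)}
    (hQ : belowP K Q = v) :
    (normSymbol L v).range = MulAction.stabilizer (L ≃ₐ[K] L) Q.asIdeal := by
  refine le_antisymm ?_ ?_
  · set D := MulAction.stabilizer (L ≃ₐ[K] L) Q.asIdeal with hD
    haveI := isGalois_fixedField D
    set E := IntermediateField.fixedField D
    haveI := isMulCommutative_intermediate E
    have hstab : MulAction.stabilizer (E ≃ₐ[K] E) (belowP E Q).asIdeal = ⊥ := by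
      rw [Subgroup.eq_bot_iff_forall]
      intro t ht
      obtain ⟨g, hg, rfl⟩ := exists_stabilizer_lift Q ht
      rwa [← hD, ← ker_restrict_fixedField D, MonoidHom.mem_ker] at hg
    obtain ⟨hr, h1⟩ := split_of_stabilizer_eq_bot (Q := belowP E Q) ((belowP_belowP Q).trans hQ) hstab
    rintro _ ⟨a, rfl⟩
    rw [← ker_restrict_fixedField D, MonoidHom.mem_ker, restrict_normSymbol,
      normSymbol_of_not_isRam hr, h1, one_zpow]
  · set H := (normSymbol L v).range
    haveI := isGalois_fixedField H
    set E := IntermediateField.fixedField H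
    haveI := isMulCommutative_intermediate E
    have htriv : ∀ c, normSymbol E v c = 1 := fun c => by
      rw [← restrict_normSymbol (L := L), ← MonoidHom.mem_ker, ker_restrict_fixedField H]
      exact ⟨c, rfl⟩
    obtain ⟨hr, h1⟩ := frob_sub_of_units (L := L) (E := E) v fun c _ => htriv c
    rw [htriv] at h1
    intro g hg
    have h2 := restrict_mem_stabilizer (E := E) hg
    rw [stabilizer_eq_bot_of_split hr h1 ((belowP_belowP Q).trans hQ), Subgroup.mem_bot,
      ← MonoidHom.mem_ker, ker_restrict_fixedField H] at h2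
    exact h2

/-- **The image of the units is the inertia group.** -/
theorem image_units_normSymbol {v : HeightOneSpectrum (𝓞 K)} {Q : HeightOneSpectrum (𝓞 L)}
    (hQ : belowP K Q = v) (g : L ≃ₐ[K] L) :
    g ∈ Q.asIdeal.inertia (L ≃ₐ[K] L) ↔ ∃ c : Kˣ, ord v c = 0 ∧ normSymbol L v c = g := by
  constructor
  · intro hg
    let U : Subgroup Kˣ :=
      { carrier := {c | ord v c = 0}
        one_mem' := ord_one v
        mul_mem' := fun {a b} (ha : ord v a = 0) (hb : ord v b = 0) => by
          show ord v (a * b) = 0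
          rw [ord_mul, ha, hb, add_zero]
        inv_mem' := fun {a} (ha : ord v a = 0) => by
          show ord v a⁻¹ = 0
          rw [ord_inv, ha, neg_zero] }
    set H := U.map (normSymbol L v)
    haveI := isGalois_fixedField H
    set E := IntermediateField.fixedField H
    haveI := isMulCommutative_intermediate E
    obtain ⟨hr, -⟩ := frob_sub_of_units (L := L) (E := E) v fun c hc => by
      rw [← restrict_normSymbol (L := L), ← MonoidHom.mem_ker, ker_restrict_fixedField H]
      exact ⟨c, hc, rfl⟩
    have h2 := restrict_mem_inertia (E := E) hg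
    rw [inertia_eq_bot hr ((belowP_belowP Q).trans hQ), Subgroup.mem_bot, ← MonoidHom.mem_ker,
      ker_restrict_fixedField H] at h2
    exact h2
  · rintro ⟨c, hc, rfl⟩
    set I := Q.asIdeal.inertia (L ≃ₐ[K] L) with hI
    haveI := isGalois_fixedField I
    set E := IntermediateField.fixedField I
    haveI := isMulCommutative_intermediate E
    have hr : ¬ IsRam E v := by
      rintro ⟨P, hP, hne⟩
      refine hne ((Subgroup.eq_bot_iff_forall _).2 fun t ht => ?_)
      obtain ⟨Q', hQ'⟩ := exists_belowP E L P
      haveI := Q'.isMaximal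
      subst hQ'
      obtain ⟨s, hs, rfl⟩ := FA.ArtinL.exists_inertia_lift (K := K) (M := E) Q'.asIdeal ht
      rw [inertia_eq_of_under (K := K) (Q' := Q) (((belowP_belowP Q').symm.trans hP).trans hQ.symm),
        ← hI, ← ker_restrict_fixedField I, MonoidHom.mem_ker] at hs
      exact hs
    rw [← ker_restrict_fixedField I, MonoidHom.mem_ker, restrict_normSymbol,
      normSymbol_of_not_isRam hr, hc, zpow_zero]

/-! ### Infinite places -/

/-- No sign needed, no symbol. -/
theorem infSymbol_eq_one {w : InfinitePlace K} {a : Kˣ}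
    (h : ¬ w.IsUnramifiedIn L → ∀ hr : IsReal w, 0 < embedding_of_isReal hr (a : K)) :
    infSymbol L w a = 1 := by
  obtain ⟨b, hb⟩ := exists_approximantInf (L := L) (nrLevel K L) w a
  rw [infSymbol_eq hb, unramFrob_eq_one hb.1 fun u hu hr => ?_, inv_one]
  have h1 := hb.2 (embedding_of_isReal hr)
  unfold infSign at h1
  split_ifs at h1 with he
  · obtain ⟨hw, he⟩ := he
    have := embedding_of_isReal_inj hw hr he
    subst this
    exact (mul_pos_iff_of_pos_right (h hu hr)).1 h1
  · rwa [mul_one] at h1

theorem stabilizer_place_eq_bot {E : Type*} [Field E] [NumberField E] [Algebra K E] [IsGalois K E]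
    {w : InfinitePlace K} (hw : w.IsUnramifiedIn E) {u : InfinitePlace E}
    (hu : u.comap (algebraMap K E) = w) : MulAction.stabilizer (E ≃ₐ[K] E) u = ⊥ :=
  InfinitePlace.isUnramified_iff_stabilizer_eq_bot.1 (hw u hu)

/-- **The image at an infinite place is the decomposition group.** -/
theorem range_infSymbol {w : InfinitePlace K} {u : InfinitePlace L}
    (hu : u.comap (algebraMap K L) = w) :
    (infSymbol L w).range = MulAction.stabilizer (L ≃ₐ[K] L) u := by
  refine le_antisymm ?_ ?_
  · set D := MulAction.stabilizer (L ≃ₐ[K] L) u with hD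
    haveI := isGalois_fixedField D
    set E := IntermediateField.fixedField D
    haveI := isMulCommutative_intermediate E
    have hstab : MulAction.stabilizer (E ≃ₐ[K] E) (u.comap (algebraMap E L)) = ⊥ := by
      rw [Subgroup.eq_bot_iff_forall]
      intro t ht
      obtain ⟨g, hg, rfl⟩ := exists_stabilizer_lift_place u ht
      rwa [← hD, ← ker_restrict_fixedField D, MonoidHom.mem_ker] at hg
    have hE : w.IsUnramifiedIn E := by
      intro u' hu'
      have h0 : (u.comap (algebraMap E L)).comap (algebraMap K E) = w := by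
        rw [← InfinitePlace.comap_comp, ← IsScalarTower.algebraMap_eq, hu]
      obtain ⟨t, rfl⟩ := InfinitePlace.exists_smul_eq_of_comap_eq (h0.trans hu'.symm)
      rw [InfinitePlace.isUnramified_smul_iff, InfinitePlace.isUnramified_iff_stabilizer_eq_bot]
      exact hstab
    rintro _ ⟨a, rfl⟩
    rw [← ker_restrict_fixedField D, MonoidHom.mem_ker, restrict_infSymbol,
      infSymbol_eq_one fun hn => absurd hE hn]
  · set H := (infSymbol L w).range
    haveI := isGalois_fixedField H
    set E := IntermediateField.fixedField H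
    haveI := isMulCommutative_intermediate E
    set g : HeightOneSpectrum (𝓞 K) → (E ≃ₐ[K] E) :=
      fun v => AlgEquiv.restrictNormalHom E (goodFrob L v)
    have hval : ∀ (x : 𝓞 K) (hx : IsSemiRay (awayMod L ∅) ({w}ᶜ : Set (InfinitePlace K)) x),
        ordProd g (intU x hx.1) = 1 := fun x hx => by
      have happ : IsApproxInf L (nrLevel K L) w (intU x hx.1) (intU x hx.1) := by
        refine ⟨fun v hv => nearOne_awayMod hv (Set.notMem_empty v) hx.1 hx.2.1, fun φ => ?_⟩
        unfold infSign
        split_ifs with he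
        · exact mul_self_pos.2 (by simpa using hx.1)
        · obtain ⟨⟨w', hw'⟩, rfl⟩ := FA.Hecke.exists_isReal_embedding φ
          rw [mul_one]
          exact hx.2.2 w' (fun e => he (by
            rw [Set.mem_singleton_iff] at e; subst e; exact ⟨hw', rfl⟩)) hw'
      have h1 : AlgEquiv.restrictNormalHom E (infSymbol L w (intU x hx.1)) = 1 := by
        rw [← MonoidHom.mem_ker, ker_restrict_fixedField H]
        exact ⟨_, rfl⟩
      rw [infSymbol_eq happ, map_inv, inv_eq_one, unramFrob, ordProd_apply,
        MonoidHom.map_finprod _ (f := fun v => goodFrob L v ^ ord v (intU x hx.1))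
          (mulSupport_ord_finite (goodFrob L) _)] at h1
      rw [ordProd_apply, ← h1]
      exact finprod_congr fun v => (map_zpow _ _ _).symm
    obtain ⟨ω, hω⟩ := exists_rayHom (awayMod_ne_bot (L := L) ∅) g
      fun x hx => hval x ⟨hx.1, hx.2.1, fun u _ hr => hx.2.2 _⟩
    have hsemi : semiClasses (awayMod_ne_bot (L := L) ∅) ({w}ᶜ : Set (InfinitePlace K)) ≤ ω.ker := by
      rw [semiClasses, Subgroup.closure_le]
      rintro _ ⟨x, hx, rfl⟩
      rw [SetLike.mem_coe, MonoidHom.mem_ker, hω, factorHom_span g hx.1 hx.ideal.1 rfl]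
      exact hval x hx
    have hE : w.IsUnramifiedIn E := (frob_of_rayHom (L := E) (awayMod_ne_bot (L := L) ∅) _ ω hsemi
      (finite_isRam K L) fun v hv hB => by
        rw [hω, factorHom_prime]
        simp only [g, goodFrob, if_neg (show ¬ IsRam L v from hB)]
        exact restrict_artinAt (not_isRam_sub hB)).2 w (by simp)
    intro t ht
    have h2 := restrict_mem_stabilizer_place (E := E) ht
    rw [stabilizer_place_eq_bot hE (by rw [← InfinitePlace.comap_comp, ← IsScalarTower.algebraMap_eq, hu]),
      Subgroup.mem_bot, ← MonoidHom.mem_ker, ker_restrict_fixedField H] at h2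
    exact h2

/-- **The kernel at an infinite place.** -/
theorem infSymbol_eq_one_iff {w : InfinitePlace K} {a : Kˣ} :
    infSymbol L w a = 1 ↔
      (¬ w.IsUnramifiedIn L → ∀ hr : IsReal w, 0 < embedding_of_isReal hr (a : K)) := by
  refine ⟨fun h hn hr => ?_, infSymbol_eq_one⟩
  by_contra hpos
  have hneg : embedding_of_isReal hr (a : K) < 0 :=
    lt_of_le_of_ne (not_lt.1 hpos) ((map_ne_zero _).2 a.ne_zero)
  obtain ⟨u, hu, hram⟩ : ∃ u : InfinitePlace L, u.comap (algebraMap K L) = w ∧
      ¬ u.IsUnramified K := by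
    simp only [InfinitePlace.IsUnramifiedIn, not_forall] at hn
    obtain ⟨u, hu, hn⟩ := hn
    exact ⟨u, hu, hn⟩
  refine hram (InfinitePlace.isUnramified_iff_stabilizer_eq_bot.2 ?_)
  rw [← range_infSymbol hu, MonoidHom.range_eq_bot_iff]
  refine MonoidHom.ext fun c => ?_
  show infSymbol L w c = 1
  by_cases hc : 0 < embedding_of_isReal hr (c : K)
  · exact infSymbol_eq_one fun _ _ => hc
  · have h1 : infSymbol L w (c / a) = 1 := infSymbol_eq_one fun _ hr' => by
      rw [Units.val_div_eq_div_val, map_div₀]
      exact div_pos_of_neg_of_neg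
        (lt_of_le_of_ne (not_lt.1 hc) ((map_ne_zero _).2 c.ne_zero)) hneg
    rwa [map_div, h, div_one] at h1

end FA.NormResidue

end
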