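import Fermat.Agent.NormResidue.Decomposition

/-!
# Uniqueness of the symbols

A family of homomorphisms with the product formula, the right values at the unramified primes, a
level at each prime and trivial values at the positive elements is the norm residue symbol.
-/

set_option autoImplicit false
set_option linter.unusedSectionVars false
set_option linter.style.haveILetI false

noncomputable section

open NumberField NumberField.InfinitePlace IsDedekindDomain Finset WithZero IsMulCommutative
open FA.ArtinRec
open FA.HasseCyclic (nearOne mem_nearOne nearOne_anti ord_eq_zero_of_nearOne)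
open scoped Pointwise nonZeroDivisors Classical

namespace FA.NormResidue

universe u

variable {K : Type u} [Field K] [NumberField K] {L : Type*} [Field L] [NumberField L] [Algebra K L]
  [IsGalois K L] [IsMulCommutative (L ≃ₐ[K] L)]
  {ψ : HeightOneSpectrum (𝓞 K) → Kˣ →* (L ≃ₐ[K] L)} {φ : InfinitePlace K → Kˣ →* (L ≃ₐ[K] L)}

/-- The product formula for an element close to `1` away from one ramified prime. -/
theorem finprod_eq_mul_unramFrob
    (hψ : ∀ v, ¬ IsRam L v → ∀ a, ψ v a = artinAt L v ^ ord v a) {v : HeightOneSpectrum (𝓞 K)}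
    {b : Kˣ} (hb : ∀ u, IsRam L u → u ≠ v → ψ u b = 1) :
    ∏ᶠ u, ψ u b = (if IsRam L v then ψ v b else 1) * unramFrob L b := by
  have h1 : (Function.mulSupport fun u => if IsRam L u then ψ u b else 1) ⊆ ({v} : Finset _) :=
    fun u hu => by
      rw [Finset.coe_singleton, Set.mem_singleton_iff]
      by_contra hne
      apply hu
      show (if IsRam L u then ψ u b else 1) = 1
      by_cases hr : IsRam L u
      · rw [if_pos hr, hb u hr hne]
      · rw [if_neg hr]
  rw [finprod_congr (g := fun u => (if IsRam L u then ψ u b else 1) * goodFrob L u ^ ord u b)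
      fun u => by
        unfold goodFrob
        split_ifs with h
        · rw [one_zpow, mul_one]
        · rw [one_mul, hψ u h],
    finprod_mul_distrib ((Finset.finite_toSet _).subset h1) (mulSupport_ord_finite _ b),
    finprod_eq_prod_of_mulSupport_subset _ h1, Finset.prod_singleton]
  rfl

/-- **The uniqueness of the symbols.** -/
theorem eq_normSymbol_of_product_formula
    (hψ : ∀ v, ¬ IsRam L v → ∀ a, ψ v a = artinAt L v ^ ord v a)
    (hlev : ∀ v, ∃ k, nearOne v k ≤ (ψ v).ker)
    (hφ : ∀ w (a : Kˣ), (∀ h : IsReal w, 0 < embedding_of_isReal h (a : K)) → φ w a = 1)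
    (hprod : ∀ a, (∏ᶠ v, ψ v a) * ∏ w : InfinitePlace K, φ w a = 1) :
    ψ = normSymbol L ∧ φ = infSymbol L := by
  choose k hk using hlev
  set m := max (nrLevel K L) ((finite_isRam K L).toFinset.sup k)
  have hone : ∀ u, IsRam L u → ∀ b ∈ nearOne u m, ψ u b = 1 := fun u hu b hb =>
    MonoidHom.mem_ker.1 (hk u (nearOne_anti u ((Finset.le_sup (f := k)
      ((finite_isRam K L).mem_toFinset.2 hu)).trans (le_max_right _ _)) hb))
  refine ⟨funext fun v => MonoidHom.ext fun a => ?_, funext fun w => MonoidHom.ext fun a => ?_⟩
  · by_cases hv : IsRam L v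
    swap
    · rw [hψ v hv, normSymbol_of_not_isRam hv]
    obtain ⟨b, hb⟩ := exists_approximant (L := L) m v a
    have h := hprod b
    rw [finprod_eq_mul_unramFrob hψ (fun u hu hne => hone u hu b (hb.2.1 u hu hne)), if_pos hv,
      Finset.prod_eq_one fun w _ => hφ w b fun _ => hb.2.2 _, mul_one] at h
    have hab : ψ v b = ψ v a := by
      rw [← div_eq_one, ← map_div]
      exact hone v hv _ (hb.1 hv)
    rw [normSymbol_eq hv (hb.mono (le_max_left _ _)), ← eq_inv_iff_mul_eq_one.mpr h, hab]
  · obtain ⟨b, hb⟩ := exists_approximantInf (L := L) m w a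
    have hne : ∀ u, u ≠ w → φ u b = 1 := fun u hu => hφ u b fun hr => by
      have h := hb.2 (embedding_of_isReal hr)
      rwa [infSign, if_neg fun ⟨hw, he⟩ => hu (embedding_of_isReal_inj hr hw he.symm), mul_one] at h
    have hab : φ w b = φ w a := by
      rw [← div_eq_one, ← map_div]
      refine hφ w _ fun hr => ?_
      have h := hb.2 (embedding_of_isReal hr)
      rw [infSign, if_pos ⟨hr, rfl⟩] at h
      rw [Units.val_div_eq_div_val, map_div₀]
      exact div_pos_iff.2 ((mul_pos_iff.1 h).imp id id)
    have hfin : ∏ᶠ u, ψ u b = unramFrob L b := by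
      rw [unramFrob, ordProd_apply]
      refine finprod_congr fun u => ?_
      by_cases hu : IsRam L u
      · rw [goodFrob, if_pos hu, one_zpow, hone u hu b (hb.1 u hu)]
      · rw [goodFrob, if_neg hu, hψ u hu]
    have h := hprod b
    rw [hfin, Finset.prod_eq_single w (fun u _ hu => hne u hu)
      (fun h => absurd (Finset.mem_univ w) h), mul_comm, hab] at h
    rw [infSymbol_eq (hb.mono (le_max_left _ _)), ← eq_inv_iff_mul_eq_one.mpr h]

end FA.NormResidue

end
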